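import Fermat.Agent.Corollaries.ZetaK.FrobCount
import Fermat.Agent.Corollaries.ZetaK.Frobenius
import Fermat.Agent.Corollaries.ZetaK.PNTAP
import Fermat.Agent.Frob.Chebotarev

/-!
# Mean values over the primes (natural density)

`HasMean w c` : `(∑ p ≤ x, w p) log x / x → c`. From `HasMean (NC r g) 1` for all `g` (`NC r g p` = number
of `x : G` with `x⁻¹ r(Frobₚ) x = g`) we get Chebotarev's theorem for class functions and for
conjugation stable sets, with natural density, and for any choice of Frobenius elements.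
-/

set_option autoImplicit false

open NumberField Filter Topology
open Fermat.Agent.Frob Fermat.Agent.FrobDensity

namespace Fermat.Agent.Cor.Cheb

/-- the mean value of `w` over the prime numbers is `c` -/
def HasMean (w : ℕ → ℝ) (c : ℝ) : Prop :=
  Tendsto (fun x : ℕ => (∑ p ∈ primesTo x, w p) * Real.log x / x) atTop (𝓝 c)

lemma HasMean.add {v w : ℕ → ℝ} {c d : ℝ} (hv : HasMean v c) (hw : HasMean w d) :
    HasMean (fun p => v p + w p) (c + d) := by
  refine (Tendsto.add hv hw).congr fun x => ?_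
  rw [Finset.sum_add_distrib]
  ring

lemma HasMean.const_mul {w : ℕ → ℝ} {d : ℝ} (c : ℝ) (hw : HasMean w d) :
    HasMean (fun p => c * w p) (c * d) := by
  refine (Tendsto.const_mul c hw).congr fun x => ?_
  rw [← Finset.mul_sum]
  ring

lemma hasMean_zero : HasMean (fun _ => (0 : ℝ)) 0 := by
  refine tendsto_const_nhds.congr fun x => ?_
  rw [Finset.sum_const_zero, zero_mul, zero_div]

lemma HasMean.sum {ι : Type*} (s : Finset ι) {w : ι → ℕ → ℝ} {c : ι → ℝ}
    (h : ∀ i ∈ s, HasMean (w i) (c i)) : HasMean (fun p => ∑ i ∈ s, w i p) (∑ i ∈ s, c i) := by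
  classical
  induction s using Finset.induction_on with
  | empty => simpa using hasMean_zero
  | insert i s hi ih =>
    have h1 := (h i (Finset.mem_insert_self i s)).add
      (ih fun j hj => h j (Finset.mem_insert_of_mem hj))
    rw [Finset.sum_insert hi]
    have h2 : (fun p => ∑ j ∈ insert i s, w j p) = fun p => w i p + ∑ j ∈ s, w j p := by
      funext p
      rw [Finset.sum_insert hi]
    rw [h2]
    exact h1

/-- finitely many primes do not matter -/
lemma HasMean.congr {v w : ℕ → ℝ} {c : ℝ} (h : HasMean v c) (S : Finset ℕ)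
    (he : ∀ p : ℕ, p.Prime → p ∉ S → v p = w p) : HasMean w c := by
  refine tendsto_of_bounded (C := ∑ p ∈ S, |v p - w p|) (fun x => ?_) h
  rw [← Finset.sum_sub_distrib]
  refine (Finset.abs_sum_le_sum_abs _ _).trans ?_
  rw [← Finset.sum_filter_add_sum_filter_not (primesTo x) (· ∈ S)]
  have h1 : ∑ p ∈ (primesTo x).filter (fun p => p ∉ S), |v p - w p| = 0 := by
    refine Finset.sum_eq_zero fun p hp => ?_
    rw [Finset.mem_filter] at hp
    rw [he p (mem_primesTo.mp hp.1).2 hp.2, sub_self, abs_zero]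
  rw [h1, add_zero]
  exact Finset.sum_le_sum_of_subset_of_nonneg (fun p hp => (Finset.mem_filter.mp hp).2)
    fun p _ _ => abs_nonneg _

lemma card_primesTo (x : ℕ) : (primesTo x).card = Nat.primeCounting x := by
  rw [primesTo, Nat.primeCounting, Nat.primeCounting', Nat.count_eq_card_filter_range]

/-- the prime number theorem -/
lemma hasMean_one : HasMean (fun _ => (1 : ℝ)) 1 := by
  refine prime_number_theorem.congr fun x => ?_
  rw [Finset.sum_const, nsmul_eq_mul, mul_one, card_primesTo]

lemma hasMean_const (c : ℝ) : HasMean (fun _ => c) c := by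
  have h := hasMean_one.const_mul c
  rwa [mul_one] at h

/-- Lower bounds whose sum is the exact mean value are equalities. -/
theorem hasMean_of_lower {ι : Type*} [Fintype ι] {w : ι → ℕ → ℝ} {c : ι → ℝ}
    (h : ∀ i, ∀ ε : ℝ, 0 < ε →
      ∀ᶠ x : ℕ in atTop, c i - ε ≤ (∑ p ∈ primesTo x, w i p) * Real.log x / x)
    (hsum : HasMean (fun p => ∑ i, w i p) (∑ i, c i)) (i : ι) : HasMean (w i) (c i) := by
  classical
  rw [HasMean, tendsto_order]
  constructor
  · intro a ha
    filter_upwards [h i ((c i - a) / 2) (by linarith)] with x hx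
    linarith
  · intro a ha
    set n : ℝ := (Fintype.card ι : ℝ) with hn
    have hn0 : 0 < n := by
      have h0 : 0 < Fintype.card ι := Fintype.card_pos_iff.mpr ⟨i⟩
      rw [hn]
      exact Nat.cast_pos.mpr h0
    set ε : ℝ := (a - c i) / (n + 1) with hε
    have hε0 : 0 < ε := by
      have : 0 < a - c i := by linarith
      positivity
    have h1 : ∀ᶠ x : ℕ in atTop, ∀ j ∈ (Finset.univ.erase i : Finset ι),
        c j - ε ≤ (∑ p ∈ primesTo x, w j p) * Real.log x / x :=
      (Filter.eventually_all_finset _).mpr fun j _ => h j ε hε0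
    have h2 : ∀ᶠ x : ℕ in atTop,
        (∑ p ∈ primesTo x, ∑ j, w j p) * Real.log x / x < (∑ j, c j) + ε :=
      hsum.eventually_lt_const (by linarith)
    filter_upwards [h1, h2] with x hx1 hx2
    have h3 : (∑ p ∈ primesTo x, ∑ j, w j p) * Real.log x / x =
        ∑ j, (∑ p ∈ primesTo x, w j p) * Real.log x / x := by
      rw [Finset.sum_comm, Finset.sum_mul, Finset.sum_div]
    rw [h3, ← Finset.add_sum_erase _ _ (Finset.mem_univ i),
      ← Finset.add_sum_erase (Finset.univ) c (Finset.mem_univ i)] at hx2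
    have h4 := Finset.sum_le_sum hx1
    rw [Finset.sum_sub_distrib, Finset.sum_const, Finset.card_erase_of_mem (Finset.mem_univ i),
      Finset.card_univ, nsmul_eq_mul] at h4
    have h5 : ((Fintype.card ι - 1 : ℕ) : ℝ) = n - 1 := by
      rw [Nat.cast_sub (Fintype.card_pos_iff.mpr ⟨i⟩), Nat.cast_one]
    rw [h5] at h4
    have h6 : n * ε + ε = a - c i := by
      rw [hε]
      field_simp
    nlinarith

section Group

variable {G : Type*} [Group G]

/-- the sum of a class function against the counting functions `NC` -/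
lemma sum_mul_NC [Fintype G] (r : GQ →* G) {f : G → ℝ} (hf : ∀ x g : G, f (x⁻¹ * g * x) = f g)
    (p : ℕ) : ∑ g, f g * NC r g p = Nat.card G * f (r (frob p)) := by
  classical
  have h1 : ∀ g : G, f g * NC r g p =
      ∑ x : G, if x⁻¹ * r (frob p) * x = g then f g else 0 := by
    intro g
    rw [NC, Nat.card_eq_fintype_card, Fintype.card_subtype, mul_comm, ← nsmul_eq_mul,
      ← Finset.sum_const, Finset.sum_filter]
  rw [Finset.sum_congr rfl fun g _ => h1 g, Finset.sum_comm]
  have h2 : ∀ x : G, (∑ g : G, if x⁻¹ * r (frob p) * x = g then f g else 0) = f (r (frob p)) := by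
    intro x
    rw [Finset.sum_ite_eq Finset.univ (x⁻¹ * r (frob p) * x) f, if_pos (Finset.mem_univ _), hf]
  rw [Finset.sum_congr rfl fun x _ => h2 x, Finset.sum_const, nsmul_eq_mul, Finset.card_univ,
    Nat.card_eq_fintype_card]

/-- **Chebotarev for class functions** from `HasMean (NC r g) 1` for all `g`. -/
theorem hasMean_class [Fintype G] {r : GQ →* G} (h : ∀ g : G, HasMean (NC r g) 1) {f : G → ℝ}
    (hf : ∀ x g : G, f (x⁻¹ * g * x) = f g) :
    HasMean (fun p => f (r (frob p))) ((∑ g, f g) / Nat.card G) := by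
  have hG : (Nat.card G : ℝ) ≠ 0 := by exact_mod_cast (Nat.card_pos (α := G)).ne'
  have h1 := (HasMean.sum (Finset.univ : Finset G) (w := fun g p => f g * NC r g p)
    (c := fun g => f g) fun g _ => by simpa using (h g).const_mul (f g)).const_mul
      (Nat.card G : ℝ)⁻¹
  have h2 : (fun p => (Nat.card G : ℝ)⁻¹ * ∑ g, f g * NC r g p) = fun p => f (r (frob p)) := by
    funext p
    rw [sum_mul_NC r hf, ← mul_assoc, inv_mul_cancel₀ hG, one_mul]
  rw [h2, inv_mul_eq_div] at h1
  exact h1

/-- for almost all primes the image of a Frobenius element is conjugate to `r (frob p)` -/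
theorem exists_isConj (r : GQ →* G)
    (hlevel : ∃ L : IntermediateField ℚ (AlgebraicClosure ℚ), FiniteDimensional ℚ L ∧
      ∀ σ : GQ, (∀ x ∈ L, σ x = x) → r σ = 1) :
    ∃ S : Finset ℕ, ∀ p : ℕ, p.Prime → p ∉ S →
      ∀ (A : ValuationSubring (AlgebraicClosure ℚ)) (σ : GQ), A.LiesOverPrime p →
        A.IsFrobeniusAt σ p → (∀ τ ∈ A.inertiaSubgroupIn ℚ, r τ = 1) ∧
          ∃ x : G, x⁻¹ * r σ * x = r (frob p) := by
  obtain ⟨L, hL, hr⟩ := hlevel
  obtain ⟨T, hT⟩ := exists_unram L
  refine ⟨T, fun p hp hpT A σ hA hσ => ⟨fun τ hτ => hr τ ((hT p hp hpT A hA).1 τ hτ), ?_⟩⟩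
  obtain ⟨A', hA', hf⟩ := exists_frob_place hp
  obtain ⟨g, rfl⟩ := exists_smul_eq hp hA' hA
  have h1 := isFrobeniusAt_conj (g := g) hf
  have h2 := (hT p hp hpT _ hA).2 _ _ hσ h1
  have h3 : r σ = r (g * frob p * g⁻¹) := by
    have h4 : r ((g * frob p * g⁻¹)⁻¹ * σ) = 1 := by
      apply hr
      intro x hx
      rw [AlgEquiv.mul_apply, h2 x hx, ← AlgEquiv.mul_apply, inv_mul_cancel, AlgEquiv.one_apply]
    rw [map_mul, map_inv, inv_mul_eq_one] at h4
    exact h4.symm
  refine ⟨r g, ?_⟩
  rw [h3, map_mul, map_mul, map_inv]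
  group

end Group

end Fermat.Agent.Cor.Cheb
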