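import Fermat.Agent.Corollaries.Cheb.NatMean

/-!
# From the counting functions to Chebotarev's density theorem

All statements here have the hypothesis `h : ∀ g, HasMean (NC r g) 1` (proved in `NatMain.lean`).
-/

set_option autoImplicit false

open NumberField Filter Topology
open Fermat.Agent.Frob Fermat.Agent.FrobDensity

namespace Fermat.Agent.Cor.Cheb

namespace DensityAux

/-- a continuous homomorphism to a discrete group factors through a finite extension -/
theorem level_of_continuous {G : Type*} [Group G] [TopologicalSpace G] [DiscreteTopology G]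
    {r : GQ →* G} (hr : Continuous r) :
    ∃ L : IntermediateField ℚ (AlgebraicClosure ℚ), FiniteDimensional ℚ L ∧
      ∀ σ : GQ, (∀ x ∈ L, σ x = x) → r σ = 1 := by
  have h1 : r ⁻¹' {1} ∈ 𝓝 (1 : GQ) := by
    refine hr.continuousAt.preimage_mem_nhds ?_
    rw [map_one]
    exact (isOpen_discrete _).mem_nhds rfl
  obtain ⟨L, hL, h2⟩ := (krullTopology_mem_nhds_one_iff ℚ (AlgebraicClosure ℚ) _).mp h1
  exact ⟨L, hL, fun σ hσ => h2 ((IntermediateField.mem_fixingSubgroup_iff L σ).mpr hσ)⟩

end DensityAux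

open DensityAux

section

variable {G : Type*} [Group G] [Fintype G] {r : GQ →* G}
  (h : ∀ g : G, HasMean (NC r g) 1)
  (hlevel : ∃ L : IntermediateField ℚ (AlgebraicClosure ℚ), FiniteDimensional ℚ L ∧
    ∀ σ : GQ, (∀ x ∈ L, σ x = x) → r σ = 1)

include h hlevel

/-- **Chebotarev for class functions**, for any choice of Frobenius elements. -/
theorem hasAvg_of_mean {φ : ℕ → GQ}
    (hφ : ∀ p : ℕ, p.Prime → ∃ A : ValuationSubring (AlgebraicClosure ℚ),
      A.LiesOverPrime p ∧ A.IsFrobeniusAt (φ p) p) {f : G → ℝ}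
    (hf : ∀ x g : G, f (x⁻¹ * g * x) = f g) : Frob.HasAvg (fun p => r (φ p)) f := by
  obtain ⟨S, hS⟩ := exists_isConj r hlevel
  refine (hasMean_class h hf).congr S fun p hp hpS => ?_
  obtain ⟨A, hA, hσ⟩ := hφ p hp
  obtain ⟨-, x, hx⟩ := hS p hp hpS A (φ p) hA hσ
  rw [← hx, hf]

open Classical in
/-- **Chebotarev's density theorem with natural density**: the number of `p ≤ x` unramified with
Frobenius in `C`, times `log x / x`, tends to `|C| / |G|`. -/
theorem tendsto_card_FrobIn_of_mean {C : Set G} (hC : ∀ g c : G, c ∈ C → g * c * g⁻¹ ∈ C) :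
    Tendsto (fun x : ℕ => (((Finset.range (x + 1)).filter fun p => p ∈ FrobIn r C).card : ℝ) *
      Real.log x / x) atTop (𝓝 ((Nat.card C : ℝ) / Nat.card G)) := by
  obtain ⟨S, hS⟩ := exists_isConj r hlevel
  have hC' : ∀ x g : G, (x⁻¹ * g * x ∈ C ↔ g ∈ C) := by
    intro x g
    constructor
    · intro hx
      have h2 := hC x _ hx
      have h3 : x * (x⁻¹ * g * x) * x⁻¹ = g := by group
      rwa [h3] at h2
    · intro hx
      have h2 := hC x⁻¹ _ hx
      rwa [inv_inv] at h2
  have h1 := hasMean_class h (f := fun g => if g ∈ C then (1 : ℝ) else 0) (fun x g => by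
    simp only [hC' x g])
  have h2 : (∑ g : G, if g ∈ C then (1 : ℝ) else 0) = Nat.card C := by
    rw [Finset.sum_boole, Nat.card_eq_fintype_card, ← Set.toFinset_card]
    congr 2
    ext g
    simp
  rw [h2] at h1
  have h3 : HasMean (fun p => if p ∈ FrobIn r C then (1 : ℝ) else 0)
      ((Nat.card C : ℝ) / Nat.card G) := by
    refine h1.congr S fun p hp hpS => ?_
    have h4 : r (frob p) ∈ C ↔ p ∈ FrobIn r C := by
      constructor
      · intro h5
        obtain ⟨A, hA, hσ⟩ := exists_frob_place hp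
        exact ⟨hp, A, hA, (hS p hp hpS A _ hA hσ).1, frob p, hσ, h5⟩
      · rintro ⟨-, A, hA, -, σ, hσ, h5⟩
        obtain ⟨-, x, hx⟩ := hS p hp hpS A σ hA hσ
        rw [← hx]
        exact (hC' x _).mpr h5
    simp only [h4]
  refine Tendsto.congr (fun x => ?_) h3
  rw [Finset.sum_boole]
  congr 4
  ext p
  simp only [primesTo, Finset.mem_filter, Finset.mem_range]
  exact ⟨fun h5 => ⟨h5.1.1, h5.2⟩, fun h5 => ⟨⟨h5.1, h5.2.1⟩, h5.2⟩⟩

open Classical in
/-- **Chebotarev's density theorem**: the proportion of the `p ≤ x` with Frobenius in `C` among all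
primes `p ≤ x` tends to `|C| / |G|`. -/
theorem tendsto_card_FrobIn_div_of_mean {C : Set G} (hC : ∀ g c : G, c ∈ C → g * c * g⁻¹ ∈ C) :
    Tendsto (fun x : ℕ => (((Finset.range (x + 1)).filter fun p => p ∈ FrobIn r C).card : ℝ) /
      Nat.primeCounting x) atTop (𝓝 ((Nat.card C : ℝ) / Nat.card G)) := by
  have h1 := (tendsto_card_FrobIn_of_mean h hlevel hC).div prime_number_theorem one_ne_zero
  rw [div_one] at h1
  refine h1.congr' ?_
  filter_upwards [eventually_gt_atTop 1] with x hx
  have hx0 : (0 : ℝ) < x := by exact_mod_cast (by omega : 0 < x)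
  have hl : 0 < Real.log (x : ℝ) := Real.log_pos (by exact_mod_cast hx)
  rcases eq_or_ne (Nat.primeCounting x : ℝ) 0 with h0 | h0
  · simp only [Pi.div_apply, h0, zero_mul, zero_div, div_zero]
  · simp only [Pi.div_apply]
    field_simp

end

end Fermat.Agent.Cor.Cheb
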