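import Mathlib

/-!
# Almost all tuples have two generators

`tendsto_bad` : the proportion of the `t : Fin k → ℤ/N` without two coordinates of order `N` tends
to `0` as `k → ∞`.
-/

set_option autoImplicit false

open Filter Topology

namespace Fermat.Agent.Cor.Cheb

namespace CountAux

open Classical in
/-- the tuples whose coordinates other than the `i`-th are in `B` -/
lemma card_pi {M : Type*} [Fintype M] (B : Finset M) {k : ℕ} (i : Fin k) :
    (Fintype.piFinset fun j : Fin k => if j = i then (Finset.univ : Finset M) else B).card =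
      Fintype.card M * B.card ^ (k - 1) := by
  rw [Fintype.card_piFinset, Fintype.prod_eq_mul_prod_compl i, if_pos rfl, Finset.card_univ]
  congr 1
  rw [Finset.prod_congr rfl (g := fun _ => B.card) fun j hj => by
    rw [if_neg (by simpa using hj)], Finset.prod_const, Finset.card_compl, Fintype.card_fin,
    Finset.card_singleton]

open Classical in
lemma card_bad_le {M : Type*} [Fintype M] (P : M → Prop) {k : ℕ} (hk : k ≠ 0) :
    Nat.card {t : Fin k → M // ¬ ∃ i j, i ≠ j ∧ P (t i) ∧ P (t j)} ≤
      k * (Fintype.card M * (Finset.univ.filter fun m : M => ¬ P m).card ^ (k - 1)) := by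
  set B : Finset M := Finset.univ.filter fun m : M => ¬ P m with hB
  rw [Nat.card_eq_fintype_card, Fintype.card_subtype]
  have h1 : (Finset.univ.filter fun t : Fin k → M => ¬ ∃ i j, i ≠ j ∧ P (t i) ∧ P (t j)) ⊆
      (Finset.univ : Finset (Fin k)).biUnion fun i =>
        Fintype.piFinset fun j : Fin k => if j = i then (Finset.univ : Finset M) else B := by
    intro t ht
    rw [Finset.mem_filter] at ht
    rw [Finset.mem_biUnion]
    have h2 : ∃ i : Fin k, ∀ j, j ≠ i → ¬ P (t j) := by
      by_cases h3 : ∃ i, P (t i)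
      · obtain ⟨i, hi⟩ := h3
        exact ⟨i, fun j hj hP => ht.2 ⟨i, j, hj.symm, hi, hP⟩⟩
      · push Not at h3
        exact ⟨⟨0, Nat.pos_of_ne_zero hk⟩, fun j _ => h3 j⟩
    obtain ⟨i, hi⟩ := h2
    refine ⟨i, Finset.mem_univ i, ?_⟩
    rw [Fintype.mem_piFinset]
    intro j
    split_ifs with h
    · exact Finset.mem_univ _
    · exact Finset.mem_filter.mpr ⟨Finset.mem_univ _, hi j h⟩
  refine (Finset.card_le_card h1).trans (Finset.card_biUnion_le.trans ?_)
  rw [Finset.sum_congr rfl fun i _ => card_pi B i, Finset.sum_const, Finset.card_univ,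
    Fintype.card_fin, smul_eq_mul]

end CountAux

/-- Almost all tuples in `(ℤ/N)ᵏ` have two coordinates of order `N`. -/
theorem tendsto_bad {N : ℕ} (hN : N ≠ 0) : Tendsto (fun k : ℕ =>
    (Nat.card {t : Fin k → Multiplicative (ZMod N) //
      ¬ ∃ i j, i ≠ j ∧ orderOf (t i) = N ∧ orderOf (t j) = N} : ℝ) / (N : ℝ) ^ k) atTop (𝓝 0) := by
  classical
  have : NeZero N := ⟨hN⟩
  set b : ℕ := (Finset.univ.filter fun m : Multiplicative (ZMod N) => ¬ orderOf m = N).card with hb
  have hcard : Fintype.card (Multiplicative (ZMod N)) = N := by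
    rw [Fintype.card_multiplicative, ZMod.card]
  have hbN : b < N := by
    have h1 : (Finset.univ.filter fun m : Multiplicative (ZMod N) => ¬ orderOf m = N) ⊂
        Finset.univ := by
      rw [Finset.filter_ssubset]
      refine ⟨Multiplicative.ofAdd 1, Finset.mem_univ _, ?_⟩
      rw [not_not, orderOf_ofAdd_eq_addOrderOf, ZMod.addOrderOf_one]
    have h2 := Finset.card_lt_card h1
    rwa [Finset.card_univ, hcard] at h2
  have hN0 : (0 : ℝ) < N := by exact_mod_cast Nat.pos_of_ne_zero hN
  have hr : (b : ℝ) / N < 1 := by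
    rw [div_lt_one hN0]
    exact_mod_cast hbN
  have hr0 : (0 : ℝ) ≤ (b : ℝ) / N := by positivity
  have h1 : Tendsto (fun k : ℕ => ((k + 1 : ℕ) : ℝ) * ((b : ℝ) / N) ^ k) atTop (𝓝 0) := by
    have h2 := (tendsto_self_mul_const_pow_of_lt_one hr0 hr).add
      (tendsto_pow_atTop_nhds_zero_of_lt_one hr0 hr)
    rw [add_zero] at h2
    refine h2.congr fun k => ?_
    push_cast
    ring
  rw [← tendsto_add_atTop_iff_nat 1]
  refine squeeze_zero (fun k => by positivity) (fun k => ?_) h1
  have h3 : Nat.card {t : Fin (k + 1) → Multiplicative (ZMod N) //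
      ¬ ∃ i j, i ≠ j ∧ orderOf (t i) = N ∧ orderOf (t j) = N} ≤ (k + 1) * (N * b ^ k) := by
    have h := CountAux.card_bad_le (fun m : Multiplicative (ZMod N) => orderOf m = N)
      (k := k + 1) (Nat.succ_ne_zero k)
    rw [hcard, Nat.add_sub_cancel] at h
    refine h.trans (le_of_eq ?_)
    congr 4
    ext m
    simp
  have h4 : (Nat.card {t : Fin (k + 1) → Multiplicative (ZMod N) //
      ¬ ∃ i j, i ≠ j ∧ orderOf (t i) = N ∧ orderOf (t j) = N} : ℝ) ≤
      ((k + 1 : ℕ) : ℝ) * (N * (b : ℝ) ^ k) := by exact_mod_cast h3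
  rw [div_le_iff₀ (by positivity)]
  refine h4.trans (le_of_eq ?_)
  rw [div_pow, pow_succ]
  field_simp

end Fermat.Agent.Cor.Cheb
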