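import Fermat.Agent.Corollaries.Cheb.NatMean
import Fermat.Agent.Corollaries.Cheb.BadCount

/-!
# The lower bound from the good elements

`ρ : Gal(ℚ̄/ℚ) → G × (ℤ/N)ᵏ` with first component `r`. If the counting functions of the good elements
(two coordinates of order `N`) have mean values at least `1`, those of `r` have mean values at least
`1` minus the proportion of the bad tuples.
-/

set_option autoImplicit false

open NumberField Filter Topology
open Fermat.Agent.Frob Fermat.Agent.FrobDensity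

namespace Fermat.Agent.Cor.Cheb

/-- the tuples with two coordinates of order `N` -/
def GoodTuple {N k : ℕ} (t : Fin k → Multiplicative (ZMod N)) : Prop :=
  ∃ i j, i ≠ j ∧ orderOf (t i) = N ∧ orderOf (t j) = N

section

variable {G : Type*} [Group G] [Finite G] {r : GQ →* G} {N k : ℕ}

lemma sum_NC_tuple [NeZero N] {ρ : GQ →* G × (Fin k → Multiplicative (ZMod N))}
    (hρ : ∀ σ, (ρ σ).1 = r σ) (g : G) (p : ℕ) :
    ∑ t : Fin k → Multiplicative (ZMod N), NC ρ (g, t) p = (N : ℝ) ^ k * NC r g p := by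
  classical
  have : Fintype G := Fintype.ofFinite G
  have h := sum_NC_fiber ρ r (MonoidHom.fst G (Fin k → Multiplicative (ZMod N)))
    (fun x => ⟨(x, 1), rfl⟩) hρ g p
  have h1 : (Finset.univ.filter fun x : G × (Fin k → Multiplicative (ZMod N)) =>
      MonoidHom.fst G (Fin k → Multiplicative (ZMod N)) x = g) = {g} ×ˢ Finset.univ := by
    ext x
    rw [Finset.mem_filter, Finset.mem_product, Finset.mem_singleton]
    exact ⟨fun h => ⟨h.2, Finset.mem_univ _⟩, fun h => ⟨Finset.mem_univ _, h.1⟩⟩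
  rw [h1, Finset.sum_product, Finset.sum_singleton, Finset.card_product, Finset.card_singleton,
    one_mul, Finset.card_univ] at h
  have h2 : Fintype.card (Fin k → Multiplicative (ZMod N)) = N ^ k := by
    rw [Fintype.card_fun, Fintype.card_fin, Fintype.card_multiplicative, ZMod.card]
  rw [h2, Nat.cast_pow] at h
  exact h

/-- **The lower bound.** -/
theorem lower_of_good (hN : N ≠ 0) {ρ : GQ →* G × (Fin k → Multiplicative (ZMod N))}
    (hρ : ∀ σ, (ρ σ).1 = r σ)
    (hgood : ∀ γ : G × (Fin k → Multiplicative (ZMod N)), GoodTuple γ.2 →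
      ∃ c : ℝ, 1 ≤ c ∧ HasMean (NC ρ γ) c) (g : G) {ε : ℝ} (hε : 0 < ε) :
    ∀ᶠ x : ℕ in atTop,
      1 - (Nat.card {t : Fin k → Multiplicative (ZMod N) // ¬ GoodTuple t} : ℝ) / (N : ℝ) ^ k - ε ≤
        (∑ p ∈ primesTo x, NC r g p) * Real.log x / x := by
  classical
  have : NeZero N := ⟨hN⟩
  have hN0 : (0 : ℝ) < (N : ℝ) ^ k := by
    have : (0 : ℝ) < N := by exact_mod_cast Nat.pos_of_ne_zero hN
    positivity
  set S : Finset (Fin k → Multiplicative (ZMod N)) := Finset.univ.filter fun t => GoodTuple t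
    with hS
  have hc : ∀ t : Fin k → Multiplicative (ZMod N), ∃ c : ℝ, GoodTuple t →
      1 ≤ c ∧ HasMean (NC ρ (g, t)) c := fun t => by
    by_cases ht : GoodTuple t
    · obtain ⟨c, h1, h2⟩ := hgood (g, t) ht
      exact ⟨c, fun _ => ⟨h1, h2⟩⟩
    · exact ⟨0, fun h => absurd h ht⟩
  choose c hc using hc
  have hmean : HasMean (fun p => ∑ t ∈ S, NC ρ (g, t) p) (∑ t ∈ S, c t) :=
    HasMean.sum S fun t ht => (hc t (Finset.mem_filter.mp ht).2).2
  have hlow : (S.card : ℝ) ≤ ∑ t ∈ S, c t := by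
    have h : ∑ t ∈ S, (1 : ℝ) ≤ ∑ t ∈ S, c t :=
      Finset.sum_le_sum fun t ht => (hc t (Finset.mem_filter.mp ht).2).1
    simpa using h
  have hcard : (S.card : ℝ) +
      Nat.card {t : Fin k → Multiplicative (ZMod N) // ¬ GoodTuple t} = (N : ℝ) ^ k := by
    have h1 : S.card + (Finset.univ.filter fun t : Fin k → Multiplicative (ZMod N) =>
        ¬ GoodTuple t).card = N ^ k := by
      rw [hS, Finset.card_filter_add_card_filter_not, Finset.card_univ, Fintype.card_fun,
        Fintype.card_fin, Fintype.card_multiplicative, ZMod.card]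
    have h2 : Nat.card {t : Fin k → Multiplicative (ZMod N) // ¬ GoodTuple t} =
        (Finset.univ.filter fun t : Fin k → Multiplicative (ZMod N) => ¬ GoodTuple t).card := by
      rw [Nat.card_eq_fintype_card, Fintype.card_subtype]
    rw [h2]
    exact_mod_cast h1
  have hev : ∀ᶠ x : ℕ in atTop, (∑ t ∈ S, c t) - ε * (N : ℝ) ^ k <
      (∑ p ∈ primesTo x, ∑ t ∈ S, NC ρ (g, t) p) * Real.log x / x :=
    hmean.eventually_const_lt (by
      have : 0 < ε * (N : ℝ) ^ k := by positivity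
      linarith)
  filter_upwards [hev] with x hx
  have h1 : (∑ p ∈ primesTo x, ∑ t ∈ S, NC ρ (g, t) p) ≤
      (N : ℝ) ^ k * ∑ p ∈ primesTo x, NC r g p := by
    rw [Finset.mul_sum]
    refine Finset.sum_le_sum fun p _ => ?_
    rw [← sum_NC_tuple hρ g p]
    exact Finset.sum_le_sum_of_subset_of_nonneg (Finset.filter_subset _ _)
      fun t _ _ => NC_nonneg ρ (g, t) p
  have h2 : (∑ p ∈ primesTo x, ∑ t ∈ S, NC ρ (g, t) p) * Real.log x / x ≤
      (N : ℝ) ^ k * ((∑ p ∈ primesTo x, NC r g p) * Real.log x / x) := by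
    have hl : 0 ≤ Real.log (x : ℝ) := Real.log_natCast_nonneg x
    calc _ ≤ ((N : ℝ) ^ k * ∑ p ∈ primesTo x, NC r g p) * Real.log x / x := by gcongr
      _ = _ := by ring
  set b : ℝ := (Nat.card {t : Fin k → Multiplicative (ZMod N) // ¬ GoodTuple t} : ℝ) with hb
  set a : ℝ := (∑ p ∈ primesTo x, NC r g p) * Real.log x / x with ha
  have h3 : (N : ℝ) ^ k - b - ε * (N : ℝ) ^ k ≤ (N : ℝ) ^ k * a := by linarith
  have h4 : 1 - b / (N : ℝ) ^ k - ε = ((N : ℝ) ^ k - b - ε * (N : ℝ) ^ k) / (N : ℝ) ^ k := by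
    field_simp
  rw [h4, div_le_iff₀ hN0, mul_comm a]
  exact h3

end

/-- **Chebotarev's theorem**, all counting functions have mean value `1`: from towers of good
elements. -/
theorem hasMean_NC_of {G : Type*} [Group G] [Finite G] {r : GQ →* G} {N : ℕ} (hN : N ≠ 0)
    (h : ∀ k : ℕ, ∃ ρ : GQ →* G × (Fin k → Multiplicative (ZMod N)), (∀ σ, (ρ σ).1 = r σ) ∧
      ∀ γ : G × (Fin k → Multiplicative (ZMod N)), GoodTuple γ.2 →
        ∃ c : ℝ, 1 ≤ c ∧ HasMean (NC ρ γ) c) (g : G) : HasMean (NC r g) 1 := by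
  classical
  have : Fintype G := Fintype.ofFinite G
  refine hasMean_of_lower (w := fun g => NC r g) (c := fun _ => 1) (fun g ε hε => ?_) ?_ g
  · have h1 : Tendsto (fun k : ℕ =>
        (Nat.card {t : Fin k → Multiplicative (ZMod N) // ¬ GoodTuple t} : ℝ) / (N : ℝ) ^ k)
        atTop (𝓝 0) := tendsto_bad hN
    obtain ⟨k, hk⟩ := (h1.eventually_lt_const (show (0 : ℝ) < ε / 2 by linarith)).exists
    obtain ⟨ρ, hρ, hgood⟩ := h k
    filter_upwards [lower_of_good hN hρ hgood g (show (0 : ℝ) < ε / 2 by linarith)] with x hx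
    linarith
  · have h2 : (fun p => ∑ g : G, NC r g p) = fun _ => ∑ _g : G, (1 : ℝ) := by
      funext p
      rw [sum_NC, Finset.sum_const, nsmul_eq_mul, mul_one, Finset.card_univ,
        Nat.card_eq_fintype_card]
    rw [h2]
    exact hasMean_const _

end Fermat.Agent.Cor.Cheb
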