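import Fermat.Agent.Corollaries.Cheb.Good3
import Fermat.Agent.Corollaries.Cheb.NatLower
import Fermat.Agent.Corollaries.Cheb.NatDensity

/-!
# Chebotarev's density theorem with natural density

`r : Gal(ℚ̄/ℚ) → G` surjective, `G` finite, `r` of finite level (or continuous, `G` discrete).

* `hasMean_NC` : the mean value over the primes `p` of `#{x : G | x⁻¹ r(Frobₚ) x = g}` is `1`.
* `chebotarev_avg` : for every class function `f : G → ℝ` the mean value of `f (r(Frobₚ))` over the
  primes is the mean value of `f` on `G`.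
* `chebotarev_natural` : for every conjugation stable `C ⊆ G`,
  `#{p ≤ x : r unramified at p, r(Frobₚ) ∈ C} / π(x) → |C| / |G|`.
-/

set_option autoImplicit false

open NumberField Filter Topology
open Fermat.Agent.Frob Fermat.Agent.FrobDensity

namespace Fermat.Agent.Cor.Cheb

/-- The mean value over the primes of the number of `x : G` with `x⁻¹ r(Frobₚ) x = g` is `1`. -/
theorem hasMean_NC {G : Type*} [Group G] [Finite G] {r : GQ →* G} (hr : Function.Surjective r)
    (hlevel : ∃ L : IntermediateField ℚ (AlgebraicClosure ℚ), FiniteDimensional ℚ L ∧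
      ∀ σ : GQ, (∀ x ∈ L, σ x = x) → r σ = 1) (g : G) : HasMean (NC r g) 1 := by
  have hN : Nat.card G ≠ 0 := Nat.card_pos.ne'
  refine hasMean_NC_of hN (fun k => ?_) g
  obtain ⟨L, hL, hrL⟩ := id hlevel
  obtain ⟨X⟩ := nonempty_aux r L hrL hN k
  exact ⟨X.rho, fun _ => rfl, fun γ hγ => X.good hr hlevel hN (fun _ => pow_card_eq_one') hγ⟩

/-- **Chebotarev's theorem for class functions**: the mean value of `f (r(Frobₚ))` over the primes
(natural density) is the mean value of `f` on `G`, for every choice of Frobenius elements. -/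
theorem chebotarev_avg {G : Type*} [Group G] [Fintype G] {r : GQ →* G}
    (hr : Function.Surjective r)
    (hlevel : ∃ L : IntermediateField ℚ (AlgebraicClosure ℚ), FiniteDimensional ℚ L ∧
      ∀ σ : GQ, (∀ x ∈ L, σ x = x) → r σ = 1) {φ : ℕ → GQ}
    (hφ : ∀ p : ℕ, p.Prime → ∃ A : ValuationSubring (AlgebraicClosure ℚ),
      A.LiesOverPrime p ∧ A.IsFrobeniusAt (φ p) p) {f : G → ℝ}
    (hf : ∀ x g : G, f (x⁻¹ * g * x) = f g) : Frob.HasAvg (fun p => r (φ p)) f :=
  hasAvg_of_mean (hasMean_NC hr hlevel) hlevel hφ hf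

open Classical in
/-- **Chebotarev's density theorem, natural density**: for `C ⊆ G` stable under conjugation the
number of primes `p ≤ x` at which `r` is unramified with Frobenius in `C` is asymptotic to
`(|C| / |G|) x / log x`. -/
theorem chebotarev_natural_log {G : Type*} [Group G] [Finite G] {r : GQ →* G}
    (hr : Function.Surjective r)
    (hlevel : ∃ L : IntermediateField ℚ (AlgebraicClosure ℚ), FiniteDimensional ℚ L ∧
      ∀ σ : GQ, (∀ x ∈ L, σ x = x) → r σ = 1) {C : Set G}
    (hC : ∀ g c : G, c ∈ C → g * c * g⁻¹ ∈ C) :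
    Tendsto (fun x : ℕ => (((Finset.range (x + 1)).filter fun p => p ∈ FrobIn r C).card : ℝ) *
      Real.log x / x) atTop (𝓝 ((Nat.card C : ℝ) / Nat.card G)) := by
  have : Fintype G := Fintype.ofFinite G
  exact tendsto_card_FrobIn_of_mean (hasMean_NC hr hlevel) hlevel hC

open Classical in
/-- **Chebotarev's density theorem, natural density**: for `C ⊆ G` stable under conjugation the
proportion of the primes `p ≤ x` at which `r` is unramified with Frobenius in `C` among all primes
`p ≤ x` tends to `|C| / |G|`. -/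
theorem chebotarev_natural {G : Type*} [Group G] [Finite G] {r : GQ →* G}
    (hr : Function.Surjective r)
    (hlevel : ∃ L : IntermediateField ℚ (AlgebraicClosure ℚ), FiniteDimensional ℚ L ∧
      ∀ σ : GQ, (∀ x ∈ L, σ x = x) → r σ = 1) {C : Set G}
    (hC : ∀ g c : G, c ∈ C → g * c * g⁻¹ ∈ C) :
    Tendsto (fun x : ℕ => (((Finset.range (x + 1)).filter fun p => p ∈ FrobIn r C).card : ℝ) /
      Nat.primeCounting x) atTop (𝓝 ((Nat.card C : ℝ) / Nat.card G)) := by
  have : Fintype G := Fintype.ofFinite G
  exact tendsto_card_FrobIn_div_of_mean (hasMean_NC hr hlevel) hlevel hC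

open Classical in
/-- The same for continuous homomorphisms to finite discrete groups. -/
theorem chebotarev_natural_of_continuous {G : Type*} [Group G] [Finite G] [TopologicalSpace G]
    [DiscreteTopology G] {r : GQ →* G} (hcont : Continuous r) (hr : Function.Surjective r)
    {C : Set G} (hC : ∀ g c : G, c ∈ C → g * c * g⁻¹ ∈ C) :
    Tendsto (fun x : ℕ => (((Finset.range (x + 1)).filter fun p => p ∈ FrobIn r C).card : ℝ) /
      Nat.primeCounting x) atTop (𝓝 ((Nat.card C : ℝ) / Nat.card G)) :=
  chebotarev_natural hr (DensityAux.level_of_continuous hcont) hC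

open Classical in
/-- **Chebotarev's density theorem for a finite Galois extension `L / ℚ` inside `ℚ̄`**, natural
density. -/
theorem chebotarev_natural_field (L : IntermediateField ℚ (AlgebraicClosure ℚ))
    [FiniteDimensional ℚ L] [IsGalois ℚ L] {C : Set (L ≃ₐ[ℚ] L)}
    (hC : ∀ g c : L ≃ₐ[ℚ] L, c ∈ C → g * c * g⁻¹ ∈ C) :
    Tendsto (fun x : ℕ => (((Finset.range (x + 1)).filter fun p =>
      p ∈ FrobIn (AlgEquiv.restrictNormalHom L : GQ →* (L ≃ₐ[ℚ] L)) C).card : ℝ) /
      Nat.primeCounting x) atTop (𝓝 ((Nat.card C : ℝ) / Nat.card (L ≃ₐ[ℚ] L))) := by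
  refine chebotarev_natural (AlgEquiv.restrictNormalHom_surjective (AlgebraicClosure ℚ))
    ⟨L, inferInstance, fun σ hσ => ?_⟩ hC
  have h1 : AlgEquiv.restrictNormalHom L σ = AlgEquiv.restrictNormalHom L (1 : GQ) :=
    (restrict_eq_iff L).mpr fun x hx => hσ x hx
  rw [h1, map_one]

end Fermat.Agent.Cor.Cheb
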