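import Fermat.Agent.Corollaries.Cheb.Defs
import Fermat.Agent.Corollaries.ZetaK.PrimeCountK

/-!
# Prime numbers by the class of the prime ideals above them

`u` is a function of the norm which is trivial on the norms of the principal ideals prime to `m`,
so it defines a homomorphism `Ψ` on the class group; from the prime ideal theorem in the ideal
classes, the number of the prime ideals of degree one with `u (N P) = a` has a limit.
-/

set_option autoImplicit false
set_option linter.unusedSectionVars false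

noncomputable section

open NumberField nonZeroDivisors Filter Topology IsDedekindDomain
open scoped Classical
open Fermat.Agent.Classic.Disc

namespace Fermat.Agent.Cor.Cheb

open Fermat.Agent.ClassL

variable {F : Type*} [Field F] [NumberField F]

variable (F) in
/-- the prime ideals of norm `≤ x` -/
def Ex (x : ℕ) : Finset (Pr F) := (finite_nP F x).toFinset

theorem mem_Ex {x : ℕ} {P : Pr F} : P ∈ Ex F x ↔ nP P ≤ x := by
  rw [Ex, Set.Finite.mem_toFinset]
  rfl

theorem natCard_filter (T : Pr F → Prop) (x : ℕ) :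
    Nat.card {P : Pr F // nP P ≤ x ∧ T P} = ((Ex F x).filter T).card := by
  rw [← Fintype.card_coe, ← Nat.card_eq_fintype_card]
  refine Nat.card_congr (Equiv.subtypeEquivRight fun P => ?_)
  rw [Finset.mem_filter, mem_Ex]

/-- prime ideals of prime norm are the places of degree one -/
theorem nP_eq_iff {p : ℕ} (hp : p.Prime) (P : Pr F) :
    nP P = p ↔ prPlace P ∈ (above F p).filter fun v => fdeg v = 1 := by
  rw [Finset.mem_filter, mem_above hp.ne_zero]
  have e : nP P = Ideal.absNorm (prPlace P).asIdeal := rfl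
  constructor
  · intro h
    have h1 : (p : 𝓞 F) ∈ (prPlace P).asIdeal := by
      rw [← h, e]
      exact Ideal.absNorm_mem _
    refine ⟨h1, ?_⟩
    have h2 := absNorm_eq hp h1
    rw [← e, h] at h2
    refine Nat.pow_right_injective hp.two_le ?_
    change p ^ fdeg (prPlace P) = p ^ 1
    rw [pow_one]
    exact h2.symm
  · rintro ⟨h1, h2⟩
    rw [e, absNorm_eq hp h1, h2, pow_one]

theorem card_nP_eq {x p : ℕ} (hp : p.Prime) (hpx : p ≤ x) :
    ((Ex F x).filter fun P => nP P = p).card = degOne F p := by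
  rw [degOne]
  refine Finset.card_equiv prPlace fun P => ?_
  rw [← nP_eq_iff hp, Finset.mem_filter, mem_Ex]
  exact ⟨fun h => h.2, fun h => ⟨h.le.trans hpx, h⟩⟩

theorem degOne_ne_zero {P : Pr F} (hP : (nP P).Prime) : degOne F (nP P) ≠ 0 := by
  rw [← card_nP_eq hP le_rfl, Finset.card_ne_zero]
  exact ⟨P, Finset.mem_filter.2 ⟨mem_Ex.2 le_rfl, rfl⟩⟩

/-- counting by the norm -/
theorem card_filter_prime (T : ℕ → Prop) (x : ℕ) :
    ((Ex F x).filter fun P => (nP P).Prime ∧ T (nP P)).card =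
      ∑ p ∈ primesTo x, if T p then degOne F p else 0 := by
  rw [Finset.card_eq_sum_card_fiberwise (f := fun P => nP P) (t := primesTo x)]
  · refine Finset.sum_congr rfl fun p hp => ?_
    obtain ⟨hpx, hp'⟩ := mem_primesTo.1 hp
    split_ifs with hT
    · rw [← card_nP_eq hp' hpx]
      congr 1
      ext P
      simp only [Finset.mem_filter]
      constructor
      · rintro ⟨⟨h1, -⟩, h2⟩
        exact ⟨h1, h2⟩
      · rintro ⟨h1, h2⟩
        exact ⟨⟨h1, by rw [h2]; exact hp', by rw [h2]; exact hT⟩, h2⟩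
    · rw [Finset.card_eq_zero, Finset.filter_eq_empty_iff]
      rintro P hP h2
      exact hT (h2 ▸ (Finset.mem_filter.1 hP).2.2)
  · intro P hP
    rw [Finset.mem_coe, Finset.mem_filter, mem_Ex] at hP
    rw [Finset.mem_coe, mem_primesTo]
    exact ⟨hP.1, hP.2.1⟩

/-- few prime ideals of degree at least two -/
theorem card_not_prime_le (x : ℕ) :
    ((Ex F x).filter fun P => ¬ (nP P).Prime).card ≤ Module.finrank ℚ F * Nat.sqrt x := by
  have h1 := (natCard_pr_le (F := F) x).2
  have h2 : Nat.card {P : Pr F // nP P ≤ x} = (Ex F x).card := by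
    rw [← Fintype.card_coe, ← Nat.card_eq_fintype_card]
    exact Nat.card_congr (Equiv.subtypeEquivRight fun P => mem_Ex.symm)
  have h3 := card_filter_prime (F := F) (fun _ => True) x
  simp only [and_true, if_true] at h3
  have h4 := Finset.card_filter_add_card_filter_not (s := Ex F x) (fun P => (nP P).Prime)
  change Nat.card {P : Pr F // nP P ≤ x} ≤ _ at h1
  omega

/-- an error term -/
theorem tendsto_error (n M : ℝ) :
    Tendsto (fun x : ℕ => (n * Nat.sqrt x + M) * Real.log x / x) atTop (𝓝 0) := by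
  have h := (tendsto_sqrt_log.const_mul n).add (tendsto_log_div.const_mul M)
  rw [mul_zero, mul_zero, add_zero] at h
  refine h.congr fun x => ?_
  ring

theorem card_le_add {α : Type*} {s t v : Finset α} (h : ∀ b ∈ s, b ∈ t ∨ b ∈ v) :
    s.card ≤ t.card + v.card :=
  (Finset.card_le_card fun b hb => Finset.mem_union.2 (h b hb)).trans (Finset.card_union_le t v)

theorem card_le_add_add {α : Type*} {s t v w : Finset α}
    (h : ∀ b ∈ s, b ∈ t ∨ b ∈ v ∨ b ∈ w) : s.card ≤ t.card + (v.card + w.card) :=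
  (card_le_add (v := v ∪ w) fun b hb => (h b hb).imp_right Finset.mem_union.2).trans
    (Nat.add_le_add_left (Finset.card_union_le v w) _)

/-- two counting functions which differ by `O(√x)` -/
theorem tendsto_of_close {f g : ℕ → ℕ} {n M : ℕ} (h1 : ∀ x, f x ≤ g x + M)
    (h2 : ∀ x, g x ≤ f x + (n * Nat.sqrt x + M)) {l : ℝ}
    (hg : Tendsto (fun x : ℕ => (g x : ℝ) * Real.log x / x) atTop (𝓝 l)) :
    Tendsto (fun x : ℕ => (f x : ℝ) * Real.log x / x) atTop (𝓝 l) := by
  have herr : Tendsto (fun x : ℕ => ((f x : ℝ) - g x) * Real.log x / x) atTop (𝓝 0) := by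
    refine squeeze_zero_norm (fun x => ?_) (tendsto_error n M)
    have h5 : (f x : ℝ) ≤ g x + M := by exact_mod_cast h1 x
    have h6 : (g x : ℝ) ≤ f x + (n * Nat.sqrt x + M) := by exact_mod_cast h2 x
    have h7 : (0 : ℝ) ≤ n * Nat.sqrt x := by positivity
    have hl : 0 ≤ Real.log (x : ℝ) / x :=
      div_nonneg (Real.log_natCast_nonneg x) (Nat.cast_nonneg x)
    rw [mul_div_assoc, mul_div_assoc, norm_mul, Real.norm_eq_abs, Real.norm_eq_abs,
      abs_of_nonneg hl]
    refine mul_le_mul_of_nonneg_right ?_ hl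
    rw [abs_le]
    constructor <;> linarith
  have hsum := herr.add hg
  rw [zero_add] at hsum
  refine hsum.congr fun x => ?_
  ring

/-- every ideal class contains prime ideals of degree one prime to `M` -/
theorem exists_prime_in_class (h : PITC F) (C : ClassGroup (𝓞 F)) {M : ℕ} (hM : M ≠ 0) :
    ∃ P : Pr F, ClassGroup.mk0 P.1 = C ∧ (nP P).Prime ∧ (nP P).Coprime M := by
  by_contra hne
  push Not at hne
  have h1 : ∀ x : ℕ, Nat.card {P : Pr F // nP P ≤ x ∧ ClassGroup.mk0 P.1 = C} ≤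
      Module.finrank ℚ F * Nat.sqrt x + (Ex F M).card := by
    intro x
    rw [natCard_filter]
    refine le_trans (Finset.card_le_card (t := (Ex F x).filter (fun P => ¬ (nP P).Prime) ∪ Ex F M)
      ?_) ((Finset.card_union_le _ _).trans (Nat.add_le_add_right (card_not_prime_le x) _))
    intro P hP
    rw [Finset.mem_filter] at hP
    rw [Finset.mem_union, Finset.mem_filter]
    by_cases hp : (nP P).Prime
    · right
      have h2 : ¬ (nP P).Coprime M := hne P hP.2 hp
      rw [hp.coprime_iff_not_dvd, not_not] at h2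
      exact mem_Ex.2 (Nat.le_of_dvd (Nat.pos_of_ne_zero hM) h2)
    · exact Or.inl ⟨hP.1, hp⟩
  have h2 : Tendsto (fun x : ℕ => (Nat.card {P : Pr F // nP P ≤ x ∧ ClassGroup.mk0 P.1 = C} : ℝ) *
      Real.log x / x) atTop (𝓝 0) := by
    refine squeeze_zero (fun x => by positivity) (fun x => ?_)
      (tendsto_error (Module.finrank ℚ F) (Ex F M).card)
    have h3 : (Nat.card {P : Pr F // nP P ≤ x ∧ ClassGroup.mk0 P.1 = C} : ℝ) ≤
        Module.finrank ℚ F * Nat.sqrt x + (Ex F M).card := by exact_mod_cast h1 x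
    exact div_le_div_of_nonneg_right
      (mul_le_mul_of_nonneg_right h3 (Real.log_natCast_nonneg x)) (Nat.cast_nonneg x)
  have h4 := tendsto_nhds_unique (h C) h2
  have h5 : (0 : ℝ) < 1 / (Nat.card (ClassGroup (𝓞 F)) : ℝ) :=
    one_div_pos.2 (by exact_mod_cast Nat.card_pos)
  exact h5.ne' h4

section hom

variable {A : Type*} [CommGroup A] {m : ℕ} {u : ℕ → A}

/-- the function `u (N I)` depends only on the class of `I` -/
theorem u_eq_of_class (h : PITC F) (hm : m ≠ 0)
    (hu : ∀ a b : ℕ, a.Coprime m → b.Coprime m → u (a * b) = u a * u b)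
    (hP : ∀ x : 𝓞 F, (Ideal.absNorm (Ideal.span {x})).Coprime m →
      u (Ideal.absNorm (Ideal.span {x})) = 1) {I J : (Ideal (𝓞 F))⁰}
    (hI : (Ideal.absNorm (I : Ideal (𝓞 F))).Coprime m)
    (hJ : (Ideal.absNorm (J : Ideal (𝓞 F))).Coprime m)
    (hIJ : ClassGroup.mk0 I = ClassGroup.mk0 J) :
    u (Ideal.absNorm (I : Ideal (𝓞 F))) = u (Ideal.absNorm (J : Ideal (𝓞 F))) := by
  obtain ⟨Q, hQ, -, hQm⟩ := exists_prime_in_class h (ClassGroup.mk0 I)⁻¹ hm
  have key : ∀ I' : (Ideal (𝓞 F))⁰, (Ideal.absNorm (I' : Ideal (𝓞 F))).Coprime m →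
      ClassGroup.mk0 I' = ClassGroup.mk0 I →
      u (Ideal.absNorm (I' : Ideal (𝓞 F))) = (u (nP Q))⁻¹ := by
    intro I' hI' hc
    have h1 : ClassGroup.mk0 (I' * Q.1) = 1 := by
      rw [map_mul, hQ, hc, mul_inv_cancel]
    rw [ClassGroup.mk0_eq_one_iff] at h1
    obtain ⟨x, hx⟩ := h1.principal
    have hx' : ((I' * Q.1 : (Ideal (𝓞 F))⁰) : Ideal (𝓞 F)) = Ideal.span {x} := hx
    have h2 : Ideal.absNorm (Ideal.span {x}) = Ideal.absNorm (I' : Ideal (𝓞 F)) * nP Q := by
      rw [← hx', Submonoid.coe_mul, map_mul]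
      rfl
    have h3 := hP x (by rw [h2]; exact hI'.mul_left hQm)
    rw [h2, hu _ _ hI' hQm] at h3
    exact eq_inv_of_mul_eq_one_left h3
  rw [key I hI rfl, key J hJ hIJ.symm]

/-- the homomorphism on the class group -/
theorem exists_hom (h : PITC F) (hm : m ≠ 0)
    (hu : ∀ a b : ℕ, a.Coprime m → b.Coprime m → u (a * b) = u a * u b)
    (hP : ∀ x : 𝓞 F, (Ideal.absNorm (Ideal.span {x})).Coprime m →
      u (Ideal.absNorm (Ideal.span {x})) = 1) :
    ∃ Ψ : ClassGroup (𝓞 F) →* A, ∀ I : (Ideal (𝓞 F))⁰,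
      (Ideal.absNorm (I : Ideal (𝓞 F))).Coprime m →
      Ψ (ClassGroup.mk0 I) = u (Ideal.absNorm (I : Ideal (𝓞 F))) := by
  choose Q hQ _ hQm using fun C : ClassGroup (𝓞 F) => exists_prime_in_class h C hm
  have key : ∀ I : (Ideal (𝓞 F))⁰, (Ideal.absNorm (I : Ideal (𝓞 F))).Coprime m →
      u (nP (Q (ClassGroup.mk0 I))) = u (Ideal.absNorm (I : Ideal (𝓞 F))) := fun I hI =>
    u_eq_of_class h hm hu hP (hQm _) hI (hQ _)
  refine ⟨MonoidHom.mk' (fun C => u (nP (Q C))) fun C C' => ?_, key⟩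
  have h1 : C * C' = ClassGroup.mk0 ((Q C).1 * (Q C').1) := by rw [map_mul, hQ, hQ]
  have h2 : Ideal.absNorm (((Q C).1 * (Q C').1 : (Ideal (𝓞 F))⁰) : Ideal (𝓞 F)) =
      nP (Q C) * nP (Q C') := by
    rw [Submonoid.coe_mul, map_mul]
    rfl
  rw [h1, key _ (by rw [h2]; exact (hQm C).mul_left (hQm C')), h2, hu _ _ (hQm C) (hQm C')]

end hom

/-- **(Y1)** The number of the prime ideals of degree one with `u (N P) = a`. -/
theorem tendsto_of_PITC (h : PITC F) {A : Type*} [CommGroup A] [Finite A] {m : ℕ} (hm : m ≠ 0)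
    (u : ℕ → A) (hu : ∀ a b : ℕ, a.Coprime m → b.Coprime m → u (a * b) = u a * u b)
    (hP : ∀ x : 𝓞 F, (Ideal.absNorm (Ideal.span {x})).Coprime m →
      u (Ideal.absNorm (Ideal.span {x})) = 1)
    {B : Subgroup A} {D : ℕ} (hD : D ≠ 0)
    (hB : ∀ p : ℕ, p.Prime → p.Coprime D → degOne F p ≠ 0 → u p ∈ B) {a : A}
    (ha : ∃ p : ℕ, p.Prime ∧ p.Coprime m ∧ degOne F p ≠ 0 ∧ u p = a) :
    ∃ c : ℝ, (1 : ℝ) / Nat.card B ≤ c ∧ Tendsto (fun x : ℕ =>
      (∑ p ∈ primesTo x, if u p = a then (degOne F p : ℝ) else 0) * Real.log x / x) atTop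
        (𝓝 c) := by
  obtain ⟨Ψ, hΨ⟩ := exists_hom h hm hu hP
  have hΨP : ∀ P : Pr F, (nP P).Coprime m → Ψ (ClassGroup.mk0 P.1) = u (nP P) := fun P hPm =>
    hΨ P.1 hPm
  -- the range of `Ψ` is contained in `B`
  have hrange : ∀ C, Ψ C ∈ B := by
    intro C
    obtain ⟨P, hC, hp, hco⟩ := exists_prime_in_class h C (mul_ne_zero hm hD)
    have h1 := hΨP P (Nat.Coprime.coprime_mul_right_right hco)
    rw [hC] at h1
    rw [h1]
    exact hB _ hp (Nat.Coprime.coprime_mul_left_right hco) (degOne_ne_zero hp)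
  -- `a` is in the range
  have harange : ∃ C, Ψ C = a := by
    obtain ⟨p, hp, hpm, hdeg, hpa⟩ := ha
    rw [← card_nP_eq hp le_rfl, Finset.card_ne_zero] at hdeg
    obtain ⟨P, hP'⟩ := hdeg
    have hPp : nP P = p := (Finset.mem_filter.1 hP').2
    exact ⟨_, (hΨP P (by rw [hPp]; exact hpm)).trans (by rw [hPp]; exact hpa)⟩
  have hfA : Fintype A := Fintype.ofFinite A
  set S : Finset (ClassGroup (𝓞 F)) := Finset.univ.filter fun C => Ψ C = a with hS
  -- the size of the fibre
  have hcard : Fintype.card (ClassGroup (𝓞 F)) ≤ S.card * Nat.card B := by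
    have h1 := Finset.card_le_mul_card_image (s := (Finset.univ : Finset (ClassGroup (𝓞 F))))
      (f := Ψ) S.card (fun b hb => by
        obtain ⟨C, -, hC⟩ := Finset.mem_image.1 hb
        exact (MonoidHom.card_fiber_eq_of_mem_range Ψ ⟨C, hC⟩ harange).le)
    rw [Finset.card_univ] at h1
    refine h1.trans (Nat.mul_le_mul_left _ ?_)
    have h2 : ((Finset.univ.image Ψ : Finset A) : Set A) ⊆ (B : Set A) := by
      intro b hb
      obtain ⟨C, -, hC⟩ := Finset.mem_image.1 (Finset.mem_coe.1 hb)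
      rw [← hC]
      exact hrange C
    have h3 := Set.ncard_le_ncard h2 (Set.toFinite _)
    rw [Set.ncard_coe_finset] at h3
    refine h3.trans (le_of_eq ?_)
    rw [← Nat.card_coe_set_eq]
    rfl
  refine ⟨S.card / (Nat.card (ClassGroup (𝓞 F)) : ℝ), ?_, ?_⟩
  · have hB0 : (0 : ℝ) < Nat.card B := by exact_mod_cast Nat.card_pos
    have hC0 : (0 : ℝ) < Nat.card (ClassGroup (𝓞 F)) := by exact_mod_cast Nat.card_pos
    rw [div_le_div_iff₀ hB0 hC0, one_mul, Nat.card_eq_fintype_card (α := ClassGroup (𝓞 F))]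
    exact_mod_cast hcard
  -- the main term
  have hg : Tendsto (fun x : ℕ =>
      (((Ex F x).filter fun P => Ψ (ClassGroup.mk0 P.1) = a).card : ℝ) * Real.log x / x) atTop
        (𝓝 (S.card / (Nat.card (ClassGroup (𝓞 F)) : ℝ))) := by
    have h1 := tendsto_finsetSum S fun (C : ClassGroup (𝓞 F)) _ => h C
    have h2 : ∑ _C ∈ S, 1 / (Nat.card (ClassGroup (𝓞 F)) : ℝ) =
        S.card / (Nat.card (ClassGroup (𝓞 F)) : ℝ) := by
      rw [Finset.sum_const, nsmul_eq_mul, mul_one_div]
    rw [h2] at h1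
    refine h1.congr fun x => ?_
    have h3 : ((Ex F x).filter fun P => Ψ (ClassGroup.mk0 P.1) = a).card =
        ∑ C ∈ S, Nat.card {P : Pr F // nP P ≤ x ∧ ClassGroup.mk0 P.1 = C} := by
      rw [Finset.card_eq_sum_card_fiberwise (f := fun P => ClassGroup.mk0 P.1) (t := S)]
      · refine Finset.sum_congr rfl fun C hC => ?_
        rw [natCard_filter, Finset.filter_filter]
        congr 1
        refine Finset.filter_congr fun P _ => ?_
        have hC' : Ψ C = a := (Finset.mem_filter.1 hC).2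
        constructor
        · rintro ⟨-, h5⟩
          exact h5
        · intro h5
          exact ⟨by rw [h5]; exact hC', h5⟩
      · intro P hP'
        rw [Finset.mem_coe, Finset.mem_filter] at hP'
        rw [Finset.mem_coe, hS, Finset.mem_filter]
        exact ⟨Finset.mem_univ _, hP'.2⟩
    rw [h3, Nat.cast_sum, Finset.sum_mul, Finset.sum_div]
    rfl
  -- comparison
  have hf : ∀ x : ℕ, (∑ p ∈ primesTo x, if u p = a then (degOne F p : ℝ) else 0) =
      (((Ex F x).filter fun P => (nP P).Prime ∧ u (nP P) = a).card : ℝ) := by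
    intro x
    rw [card_filter_prime (F := F) (fun p => u p = a) x, Nat.cast_sum]
    refine Finset.sum_congr rfl fun p _ => ?_
    split_ifs <;> simp
  have h12 : ∀ x : ℕ, ((Ex F x).filter fun P => (nP P).Prime ∧ u (nP P) = a).card ≤
      ((Ex F x).filter fun P => Ψ (ClassGroup.mk0 P.1) = a).card + (Ex F m).card := by
    intro x
    refine card_le_add fun P hP' => ?_
    rw [Finset.mem_filter] at hP'
    rw [Finset.mem_filter]
    by_cases hco : (nP P).Coprime m
    · exact Or.inl ⟨hP'.1, by rw [hΨP P hco]; exact hP'.2.2⟩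
    · right
      rw [hP'.2.1.coprime_iff_not_dvd, not_not] at hco
      exact mem_Ex.2 (Nat.le_of_dvd (Nat.pos_of_ne_zero hm) hco)
  have h21 : ∀ x : ℕ, ((Ex F x).filter fun P => Ψ (ClassGroup.mk0 P.1) = a).card ≤
      ((Ex F x).filter fun P => (nP P).Prime ∧ u (nP P) = a).card +
        (Module.finrank ℚ F * Nat.sqrt x + (Ex F m).card) := by
    intro x
    refine (card_le_add_add (v := (Ex F x).filter fun P => ¬ (nP P).Prime) (w := Ex F m)
      fun P hP' => ?_).trans (Nat.add_le_add_left (Nat.add_le_add_right (card_not_prime_le x) _) _)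
    rw [Finset.mem_filter] at hP'
    rw [Finset.mem_filter, Finset.mem_filter]
    by_cases hp : (nP P).Prime
    · by_cases hco : (nP P).Coprime m
      · exact Or.inl ⟨hP'.1, hp, by rw [← hΨP P hco]; exact hP'.2⟩
      · right
        right
        rw [hp.coprime_iff_not_dvd, not_not] at hco
        exact mem_Ex.2 (Nat.le_of_dvd (Nat.pos_of_ne_zero hm) hco)
    · exact Or.inr (Or.inl ⟨hP'.1, hp⟩)
  exact (tendsto_of_close h12 h21 hg).congr fun x => by rw [hf]

end Fermat.Agent.Cor.Cheb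

end
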