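import Fermat.Agent.Classic.Level.FixField
import Fermat.Agent.Minkowski.Inertia
import Fermat.Agent.Frob.DensityAlgebraic

/-!
# Norms modulo a prime which ramifies in an auxiliary direction

`F` is the fixed field of `ρ⁻¹(H)`. If the inertia element `ι` at `ℓ` acts on the embeddings of `F`
with all orbits of length `N` and commutes with a Frobenius there, the norms of the integers of `F`
are `N`-th powers modulo `ℓ`.
-/

set_option autoImplicit false

namespace Fermat.Agent.Cor.Cheb

open NumberField Fermat.Agent.Frob Fermat.Agent.FrobDensity Fermat.Agent.Classic.Level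

local notation "Qbar" => AlgebraicClosure ℚ

section Abs

variable {E : Type*} [Fintype E] {s t : Equiv.Perm E}

/-- the orbit of `a` under `s` has exactly `N` elements. -/
theorem card_fiber [DecidableEq E] {N : ℕ} (hN : s ^ N = 1)
    (hfree : ∀ (x : E) (n : ℕ), (s ^ n) x = x → N ∣ n) (a : E)
    [DecidablePred fun b => Quotient.mk (Equiv.Perm.SameCycle.setoid s) b =
      Quotient.mk (Equiv.Perm.SameCycle.setoid s) a] (hN0 : N ≠ 0) :
    (Finset.univ.filter fun b => Quotient.mk (Equiv.Perm.SameCycle.setoid s) b =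
      Quotient.mk (Equiv.Perm.SameCycle.setoid s) a).card = N := by
  have h1 : (Finset.univ.filter fun b => Quotient.mk (Equiv.Perm.SameCycle.setoid s) b =
      Quotient.mk (Equiv.Perm.SameCycle.setoid s) a) =
      (Finset.range N).image fun n => (s ^ n) a := by
    ext b
    simp only [Finset.mem_filter, Finset.mem_univ, true_and, Finset.mem_image, Finset.mem_range]
    constructor
    · intro h
      obtain ⟨i, hi⟩ : s.SameCycle a b := Quotient.exact h.symm
      have h2 : (0 : ℤ) ≤ i % N := Int.emod_nonneg _ (by exact_mod_cast hN0)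
      have h3 : i % N < N := Int.emod_lt_of_pos _ (by omega)
      refine ⟨(i % N).toNat, by omega, ?_⟩
      rw [← hi, zpow_eq_zpow_emod' i hN, ← zpow_natCast, Int.toNat_of_nonneg h2]
    · rintro ⟨n, -, rfl⟩
      exact (Quotient.sound (⟨(n : ℤ), by rw [zpow_natCast]⟩ : s.SameCycle a ((s ^ n) a))).symm
  rw [h1, Finset.card_image_of_injOn, Finset.card_range]
  have key : ∀ n m : ℕ, n ≤ m → m < N → (s ^ n) a = (s ^ m) a → n = m := by
    intro n m hnm hm h
    have h2 : (s ^ (m - n)) a = a := by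
      have h3 : (s ^ n) ((s ^ (m - n)) a) = (s ^ n) a := by
        rw [← Equiv.Perm.mul_apply, ← pow_add, Nat.add_sub_cancel' hnm, h]
      exact (s ^ n).injective h3
    have h4 := Nat.eq_zero_of_dvd_of_lt (hfree a _ h2) (by omega)
    omega
  intro n hn m hm h
  rw [Finset.coe_range, Set.mem_Iio] at hn hm
  rcases le_total n m with h5 | h5
  · exact key n m h5 hm h
  · exact (key m n h5 hn h.symm).symm

/-- The product over all points of a function invariant under `s`, all cycles of length `N`, is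
an `N`-th power, of an element fixed by `y ↦ y ^ ℓ` if a permutation `t` commuting with `s` raises
the function to the `ℓ`-th power. -/
theorem exists_prod_eq_pow {M : Type*} [CommMonoid M] (hst : Commute s t) {N ℓ : ℕ}
    (hN : s ^ N = 1) (hN0 : N ≠ 0) (hfree : ∀ (x : E) (n : ℕ), (s ^ n) x = x → N ∣ n)
    (v : E → M) (hv : ∀ x, v (s x) = v x) (hw : ∀ x, v (t x) = v x ^ ℓ) :
    ∃ y : M, y ^ ℓ = y ∧ ∏ x, v x = y ^ N := by
  classical
  let S : Setoid E := Equiv.Perm.SameCycle.setoid s
  have hn : ∀ (n : ℕ) (x : E), v ((s ^ n) x) = v x := by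
    intro n
    induction n with
    | zero => intro x; rfl
    | succ n ih => intro x; rw [pow_succ', Equiv.Perm.mul_apply, hv, ih]
  have hz : ∀ (i : ℤ) (x : E), v ((s ^ i) x) = v x := by
    intro i x
    obtain ⟨n, rfl | rfl⟩ := i.eq_nat_or_neg
    · rw [zpow_natCast, hn]
    · have h1 := hn n ((s ^ (-(n : ℤ))) x)
      rw [← h1, ← Equiv.Perm.mul_apply, ← zpow_natCast, ← zpow_add, add_neg_cancel, zpow_zero,
        Equiv.Perm.one_apply]
  let w : Quotient S → M := Quotient.lift v fun a b hab => by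
    obtain ⟨i, rfl⟩ : s.SameCycle a b := hab
    exact (hz i a).symm
  have hcomm : ∀ (i : ℤ) (x : E), t ((s ^ i) x) = (s ^ i) (t x) := by
    intro i x
    have h1 : t * s ^ i = s ^ i * t := (hst.zpow_left i).eq.symm
    exact DFunLike.congr_fun h1 x
  let e : Quotient S ≃ Quotient S := Quotient.congr t fun a b => by
    constructor
    · rintro ⟨i, rfl⟩
      exact ⟨i, (hcomm i a).symm⟩
    · rintro ⟨i, hi⟩
      refine ⟨i, t.injective ?_⟩
      rw [hcomm, hi]
  refine ⟨∏ q, w q, ?_, ?_⟩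
  · rw [← Finset.prod_pow, ← e.prod_comp w]
    refine Finset.prod_congr rfl fun q _ => ?_
    obtain ⟨a, rfl⟩ := Quotient.exists_rep q
    exact (hw a).symm
  · rw [← Finset.prod_fiberwise Finset.univ (fun x => Quotient.mk S x) v, ← Finset.prod_pow]
    refine Finset.prod_congr rfl fun q _ => ?_
    obtain ⟨a, rfl⟩ := Quotient.exists_rep q
    rw [← card_fiber hN hfree a hN0, ← Finset.prod_const]
    refine Finset.prod_congr rfl fun b hb => ?_
    rw [Finset.mem_filter] at hb
    change v b = w (Quotient.mk S a)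
    rw [← hb.2]
    rfl

end Abs

/-- The reduction of an embedding does not see inertia. -/
theorem redτ_inertia {F : Type*} [Field F] [NumberField F] {A : ValuationSubring Qbar} {ι : GQ}
    (hι : ι ∈ A.inertiaSubgroupIn ℚ) (τ : F →+* Qbar) (x : 𝓞 F) :
    redτ A ((gh ι).comp τ) x = redτ A τ x := by
  rw [redτ, redτ, RingHom.comp_apply, RingHom.comp_apply, ← sub_eq_zero, ← map_sub,
    redA_eq_zero_iff, mem_centre_iff]
  exact (Minkowski.sub_mem_nonunits_of_mem_inertia hι (mem_of_mem_Zbar A (toZbar τ x))).2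

/-- The norm as a product over the embeddings in `ℚ̄`, modulo `A`. -/
theorem redA_norm {F : Type*} [Field F] [NumberField F] [Fintype (F →+* Qbar)]
    (A : ValuationSubring Qbar) (x : 𝓞 F) :
    ((Algebra.norm ℤ x : ℤ) : IsLocalRing.ResidueField A) = ∏ τ : F →+* Qbar, redτ A τ x := by
  have h1 : algebraMap ℤ Zbar (Algebra.norm ℤ x) = ∏ τ : F →+* Qbar, toZbar τ x := by
    apply Subtype.ext
    have h2 := Algebra.norm_eq_prod_embeddings ℚ Qbar (x : F)
    rw [← Algebra.coe_norm_int] at h2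
    have h3 : ((algebraMap ℤ Zbar (Algebra.norm ℤ x) : Zbar) : Qbar) =
        algebraMap ℚ Qbar ((Algebra.norm ℤ x : ℤ) : ℚ) := by
      rw [map_intCast]
      exact map_intCast (algebraMap Zbar Qbar) _
    rw [h3, h2]
    have h4 : ((∏ τ : F →+* Qbar, toZbar τ x : Zbar) : Qbar) = ∏ τ : F →+* Qbar, τ (x : F) := by
      rw [← Subalgebra.coe_val, map_prod]
      rfl
    rw [h4]
    exact Fintype.prod_equiv (RingHom.equivRatAlgHom F Qbar).symm _ _ fun _ => rfl
  have h5 := congrArg (redA A) h1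
  rw [map_prod, eq_intCast, map_intCast] at h5
  exact h5

/-- **Norms are `N`-th powers modulo `ℓ`.** -/
theorem norm_eq_pow {G : Type*} [Group G] [Finite G] {ρ : GQ →* G} {H : Subgroup G}
    (T : FixField ρ H) (hs : Function.Surjective ρ) {ℓ N : ℕ} (hℓ : ℓ.Prime)
    {A : ValuationSubring Qbar} (hA : A.LiesOverPrime ℓ) {ι φ : GQ}
    (hι : ι ∈ A.inertiaSubgroupIn ℚ) (hφ : A.IsFrobeniusAt φ ℓ) (hc : Commute (ρ ι) (ρ φ))
    (hN : ρ ι ^ N = 1) (hfree : ∀ (g : G) (n : ℕ), g⁻¹ * ρ ι ^ n * g ∈ H → N ∣ n)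
    (x : 𝓞 T.F) : ∃ y : ZMod ℓ, ((Algebra.norm ℤ x : ℤ) : ZMod ℓ) = y ^ N := by
  classical
  have hfin : Fintype (G ⧸ H) := Fintype.ofFinite _
  have hfinE : Fintype (T.F →+* Qbar) := Fintype.ofEquiv _ (T.emb hs)
  have hN0 : N ≠ 0 := by
    rintro rfl
    have h1 := hfree 1 (orderOf (ρ ι)) (by
      rw [pow_orderOf_eq_one, mul_one, inv_one, mul_one]
      exact one_mem H)
    exact (orderOf_pos (ρ ι)).ne' (zero_dvd_iff.mp h1)
  let s : Equiv.Perm (G ⧸ H) := MulAction.toPerm (ρ ι)
  let t : Equiv.Perm (G ⧸ H) := MulAction.toPerm (ρ φ)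
  have hsn : ∀ (n : ℕ) (q : G ⧸ H), (s ^ n) q = (ρ ι) ^ n • q := by
    intro n q
    induction n generalizing q with
    | zero => rw [pow_zero, pow_zero, one_smul]; rfl
    | succ n ih => rw [pow_succ', Equiv.Perm.mul_apply, ih, pow_succ', mul_smul]; rfl
  have hst : Commute s t := by
    refine Equiv.ext fun q => ?_
    change ρ ι • (ρ φ • q) = ρ φ • (ρ ι • q)
    rw [← mul_smul, ← mul_smul, hc.eq]
  have hsN : s ^ N = 1 := by
    refine Equiv.ext fun q => ?_
    rw [hsn, hN, one_smul]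
    rfl
  have hfree' : ∀ (q : G ⧸ H) (n : ℕ), (s ^ n) q = q → N ∣ n := by
    intro q n h
    obtain ⟨g, rfl⟩ := QuotientGroup.mk_surjective q
    rw [hsn] at h
    have h1 : ((ρ ι ^ n * g : G) : G ⧸ H) = (g : G ⧸ H) := h
    rw [eq_comm, QuotientGroup.eq, ← mul_assoc] at h1
    exact hfree g n h1
  obtain ⟨y, hy, hprod⟩ := exists_prod_eq_pow hst hsN hN0 hfree'
    (fun q => redτ A (T.emb hs q) x)
    (fun q => by
      change redτ A (T.emb hs (ρ ι • q)) x = _
      rw [T.emb_smul]
      exact redτ_inertia hι _ x)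
    (fun q => by
      change redτ A (T.emb hs (ρ φ • q)) x = _
      rw [T.emb_smul]
      exact redτ_frob hφ _ x)
  obtain ⟨k, rfl⟩ := exists_int_of_pow hℓ hA hy
  have hch := charP_residue hℓ hA
  refine ⟨(k : ZMod ℓ), ?_⟩
  have h1 : ((Algebra.norm ℤ x : ℤ) : IsLocalRing.ResidueField A) = (k : IsLocalRing.ResidueField A) ^ N := by
    rw [redA_norm A x, ← hprod]
    exact (Fintype.prod_equiv (T.emb hs) _ _ fun _ => rfl).symm
  have h2 : ((Algebra.norm ℤ x - k ^ N : ℤ) : IsLocalRing.ResidueField A) = 0 := by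
    rw [Int.cast_sub, h1, Int.cast_pow, sub_self]
  rw [CharP.intCast_eq_zero_iff (IsLocalRing.ResidueField A) ℓ,
    ← ZMod.intCast_zmod_eq_zero_iff_dvd, Int.cast_sub, sub_eq_zero] at h2
  rw [h2, Int.cast_pow]

end Fermat.Agent.Cor.Cheb
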