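import Fermat.Agent.Corollaries.Cheb.Good
import Fermat.Agent.Corollaries.Cheb.ClassU
import Fermat.Agent.Corollaries.Cheb.NormPow
import Fermat.Agent.LTF.DeepCheb

/-!
# The good elements
-/

set_option autoImplicit false

open NumberField Filter Topology
open scoped nonZeroDivisors

namespace Fermat.Agent.Cor.Cheb

open Fermat.Agent.Frob Fermat.Agent.FrobDensity Fermat.Agent.Classic.Level

section level

variable {G : Type*} [Group G] {ρ : GQ →* G}

/-- a homomorphism of finite level has fields -/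
theorem exists_fixField_of_level {L : IntermediateField ℚ (AlgebraicClosure ℚ)}
    [FiniteDimensional ℚ L] (hL : ∀ σ : GQ, (∀ x ∈ L, σ x = x) → ρ σ = 1) (H : Subgroup G) :
    Nonempty (FixField ρ H) := by
  let _ : TopologicalSpace G := ⊥
  have : DiscreteTopology G := ⟨rfl⟩
  have hopen : IsOpen ((ρ.ker : Subgroup GQ) : Set GQ) := by
    refine Subgroup.isOpen_mono (H₁ := L.fixingSubgroup) ?_ (L.fixingSubgroup_isOpen)
    intro σ hσ
    rw [MonoidHom.mem_ker]
    exact hL σ fun x hx => (IntermediateField.mem_fixingSubgroup_iff L σ).mp hσ x hx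
  have hc : Continuous ρ := by
    refine continuous_def.mpr fun s _ => ?_
    have : ρ ⁻¹' s = ⋃ σ ∈ ρ ⁻¹' s, (fun τ => σ * τ) '' ((ρ.ker : Subgroup GQ) : Set GQ) := by
      ext τ
      simp only [Set.mem_preimage, Set.mem_iUnion, Set.mem_image, SetLike.mem_coe, MonoidHom.mem_ker]
      constructor
      · intro h
        exact ⟨τ, h, 1, map_one ρ, mul_one τ⟩
      · rintro ⟨σ, hσ, κ, hκ, rfl⟩
        rw [map_mul, hκ, mul_one]
        exact hσ
    rw [this]
    exact isOpen_biUnion fun σ _ => (Homeomorph.mulLeft σ).isOpenMap _ hopen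
  exact exists_fixField hc H

end level

namespace Aux

variable {G : Type*} [Group G] {r : GQ →* G} {N k : ℕ} (X : Aux r N k)

/-- the level of `ρ` -/
theorem exists_level (hlevel : ∃ L : IntermediateField ℚ (AlgebraicClosure ℚ),
    FiniteDimensional ℚ L ∧ ∀ σ : GQ, (∀ x ∈ L, σ x = x) → r σ = 1) :
    ∃ L : IntermediateField ℚ (AlgebraicClosure ℚ), FiniteDimensional ℚ L ∧
      ∀ σ : GQ, (∀ x ∈ L, σ x = x) → X.rho σ = 1 := by
  obtain ⟨L, hL, h⟩ := hlevel
  have := X.fin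
  refine ⟨L ⊔ X.M, IntermediateField.finiteDimensional_sup _ _, fun σ hσ => ?_⟩
  refine Prod.ext ?_ (funext fun j => ?_)
  · exact h σ fun x hx => hσ x ((le_sup_left : L ≤ L ⊔ X.M) hx)
  · exact X.level σ (fun x hx => hσ x ((le_sup_right : X.M ≤ L ⊔ X.M) hx)) j

theorem pow_snd (t : Fin k → Multiplicative (ZMod N)) : t ^ N = 1 := by
  funext j
  change (t j) ^ N = 1
  refine Multiplicative.toAdd.injective ?_
  rw [toAdd_pow, toAdd_one, nsmul_eq_mul, ZMod.natCast_self, zero_mul]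

variable {γ : G × (Fin k → Multiplicative (ZMod N))}

theorem pow_good (hexp : ∀ g : G, g ^ N = 1) : γ ^ N = 1 := by
  refine Prod.ext (hexp γ.1) ?_
  exact pow_snd γ.2

theorem zpow_eq_one_of_good (hexp : ∀ g : G, g ^ N = 1) {i : Fin k} (hi : orderOf (γ.2 i) = N)
    {z : ℤ} (hz : (γ.2 i) ^ z = 1) : γ ^ z = 1 := by
  rw [← orderOf_dvd_iff_zpow_eq_one, hi] at hz
  obtain ⟨w, rfl⟩ := hz
  rw [zpow_mul, zpow_natCast, pow_good hexp, one_zpow]

theorem orderOf_good (hexp : ∀ g : G, g ^ N = 1) {i : Fin k} (hi : orderOf (γ.2 i) = N) :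
    orderOf γ = N := by
  refine Nat.dvd_antisymm (orderOf_dvd_of_pow_eq_one (pow_good hexp))
    ((dvd_of_eq hi.symm).trans (orderOf_dvd_of_pow_eq_one ?_))
  have h := pow_orderOf_eq_one γ
  have h2 : (γ ^ orderOf γ).2 i = 1 := by rw [h]; rfl
  exact h2

theorem orderOf_snd_good {i : Fin k} (hi : orderOf (γ.2 i) = N) : orderOf γ.2 = N := by
  refine Nat.dvd_antisymm (orderOf_dvd_of_pow_eq_one (pow_snd _))
    ((dvd_of_eq hi.symm).trans (orderOf_dvd_of_pow_eq_one ?_))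
  have h2 : (γ.2 ^ orderOf γ.2) i = 1 := by rw [pow_orderOf_eq_one]; rfl
  exact h2

/-- inertia meets the conjugates of `⟨γ⟩` trivially -/
theorem free_good (hexp : ∀ g : G, g ^ N = 1)
    (hγ : ∃ i j, i ≠ j ∧ orderOf (γ.2 i) = N ∧ orderOf (γ.2 j) = N) (j : Fin k)
    (g : G × (Fin k → Multiplicative (ZMod N))) (n : ℕ)
    (h : g⁻¹ * ((1 : G), Pi.mulSingle (M := fun _ => Multiplicative (ZMod N)) j
      (Multiplicative.ofAdd 1)) ^ n * g ∈ Subgroup.zpowers γ) : N ∣ n := by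
  obtain ⟨z, hz⟩ := h
  -- another index with a generator
  obtain ⟨i, hij, hi⟩ : ∃ i, i ≠ j ∧ orderOf (γ.2 i) = N := by
    obtain ⟨a, b, hab, ha, hb⟩ := hγ
    by_cases h1 : a = j
    · exact ⟨b, fun h2 => hab (h1.trans h2.symm), hb⟩
    · exact ⟨a, h1, ha⟩
  have h1 : ∀ l : Fin k, (γ.2 l) ^ z = (Pi.mulSingle (M := fun _ => Multiplicative (ZMod N)) j
      (Multiplicative.ofAdd 1) l) ^ n := by
    intro l
    have h2 := congrArg (fun y : G × (Fin k → Multiplicative (ZMod N)) => y.2 l) hz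
    have h3 : (g.2 l)⁻¹ * (Pi.mulSingle (M := fun _ => Multiplicative (ZMod N)) j
      (Multiplicative.ofAdd 1) l) ^ n * g.2 l = (Pi.mulSingle (M := fun _ => Multiplicative (ZMod N)) j
      (Multiplicative.ofAdd 1) l) ^ n := by
      rw [mul_comm, mul_inv_cancel_left]
    exact h2.trans h3
  have h4 : γ ^ z = 1 := by
    refine zpow_eq_one_of_good hexp hi ?_
    rw [h1 i, Pi.mulSingle_eq_of_ne hij, one_pow]
  have h5 : (γ.2 j) ^ z = 1 := congrArg (fun y : G × (Fin k → Multiplicative (ZMod N)) => y.2 j) h4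
  rw [h1 j, Pi.mulSingle_eq_same] at h5
  have h6 := congrArg Multiplicative.toAdd h5
  rw [toAdd_pow, toAdd_ofAdd, toAdd_one, nsmul_one, ZMod.natCast_eq_zero_iff] at h6
  exact h6

/-- the residue symbol of a principal ideal is trivial -/
theorem res_eq_one (hN : N ≠ 0) {n : ℤ} (hn : n.natAbs.Coprime X.mod)
    (h : ∀ j : Fin k, ∃ y : ZMod (X.ℓ j), (n : ZMod (X.ℓ j)) = y ^ N) : X.res n.natAbs = 1 := by
  funext j
  have hc := X.coprime_of_mod hn j
  obtain ⟨y, hy⟩ := h j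
  rw [res, dif_pos hc]
  change _ = (1 : Multiplicative (ZMod N))
  -- the sign
  obtain ⟨ε, hε, hεu⟩ : ∃ ε : (ZMod (X.ℓ j))ˣ, ((ZMod.unitOfCoprime n.natAbs hc : (ZMod (X.ℓ j))ˣ) :
      ZMod (X.ℓ j)) = (ε : ZMod (X.ℓ j)) * (n : ZMod (X.ℓ j)) ∧ X.u j ε = 1 := by
    rcases Int.natAbs_eq n with h1 | h1
    · refine ⟨1, ?_, map_one _⟩
      rw [ZMod.coe_unitOfCoprime, Units.val_one, one_mul]
      conv_rhs => rw [h1]
      rw [Int.cast_natCast]
    · refine ⟨-1, ?_, X.u_neg j⟩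
      rw [ZMod.coe_unitOfCoprime, Units.val_neg, Units.val_one, neg_mul, one_mul]
      conv_rhs => rw [h1]
      rw [Int.cast_neg, Int.cast_natCast, neg_neg]
  have hun : IsUnit (n : ZMod (X.ℓ j)) := by
    have h2 : IsUnit ((ε : ZMod (X.ℓ j)) * (n : ZMod (X.ℓ j))) := hε ▸ Units.isUnit _
    exact (IsUnit.mul_iff.mp h2).2
  have hy2 : IsUnit y := by
    rw [hy, isUnit_pow_iff hN] at hun
    exact hun
  obtain ⟨v, rfl⟩ := hy2
  have h3 : ZMod.unitOfCoprime n.natAbs hc = ε * v ^ N := by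
    ext
    rw [hε, hy]
    push_cast
    rfl
  rw [h3, map_mul, hεu, one_mul, map_pow]
  exact congrFun (pow_snd (N := N) (k := 1) fun _ => X.u j v) 0

end Aux

end Fermat.Agent.Cor.Cheb
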