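import Fermat.Agent.Frob.Chebotarev
import Fermat.Agent.Frob.LDens
import Fermat.Agent.S36.NormInertia

/-!
# Auxiliary cyclotomic characters for Chebotarev's theorem with natural density ((Y3), helper55)

For a homomorphism `r` of `G_ℚ` of finite level, `N ≥ 1` and `k` there are `k` different primes `ℓ_j`,
unramified in `r`, and characters `ψ_j = u_j ∘ cyc_{ℓ_j}` of order `N` (`u_j(-1) = 1`), such that the inertia
group at `ℓ_j` contains an element `ι` with `r ι = 1`, `ψ_j ι` = the generator, `ψ_i ι = 1` for `i ≠ j`.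
-/

set_option autoImplicit false

open Fermat.Agent.Frob Fermat.Agent.FrobDensity

namespace Fermat.Agent.Cor.Cheb.AuxChar

/-- Characters of order `N` of `(ℤ/ℓ)ˣ`, trivial on `-1`, for `ℓ ≡ 1 mod 2N`. -/
theorem exists_char {ℓ N : ℕ} (hℓ : ℓ.Prime) (hN : N ≠ 0) (h : ℓ ≡ 1 [MOD 2 * N]) :
    ∃ u : (ZMod ℓ)ˣ →* Multiplicative (ZMod N),
      u (-1) = 1 ∧ ∃ v, u v = Multiplicative.ofAdd 1 := by
  have : Fact ℓ.Prime := ⟨hℓ⟩
  have : NeZero N := ⟨hN⟩
  obtain ⟨m, hm⟩ : 2 * N ∣ ℓ - 1 := (Nat.modEq_iff_dvd' hℓ.one_le).mp h.symm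
  obtain ⟨g, hg⟩ := IsCyclic.exists_generator (α := (ZMod ℓ)ˣ)
  have hcard : Nat.card (ZMod ℓ)ˣ = ℓ - 1 := by
    rw [Nat.card_eq_fintype_card, ZMod.card_units]
  let e := zmodMulEquivOfGenerator hg hcard
  have hdvd : N ∣ ℓ - 1 := ⟨2 * m, by rw [hm]; ring⟩
  let u : (ZMod ℓ)ˣ →* Multiplicative (ZMod N) :=
    (AddMonoidHom.toMultiplicative (ZMod.castHom hdvd (ZMod N)).toAddMonoidHom).comp
      e.symm.toMonoidHom
  have hu : u g = Multiplicative.ofAdd 1 := by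
    change Multiplicative.ofAdd (ZMod.castHom hdvd (ZMod N)
      (Multiplicative.toAdd (e.symm g))) = _
    rw [zmodMulEquivOfGenerator_symm_apply_generator, toAdd_ofAdd, map_one]
  refine ⟨u, ?_, g, hu⟩
  obtain ⟨i, hi⟩ := Subgroup.mem_zpowers_iff.mp (hg (-1))
  have h2 : g ^ (i * 2) = 1 := by
    rw [zpow_mul, hi]
    norm_num
  have h3 : ((2 * N * m : ℕ) : ℤ) ∣ i * 2 := by
    rw [← hm, ← hcard, ← orderOf_eq_card_of_forall_mem_zpowers hg]
    exact orderOf_dvd_iff_zpow_eq_one.mpr h2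
  obtain ⟨t, ht⟩ := h3
  have h4 : i = (N : ℤ) * (m * t) := by
    push_cast at ht
    have : 2 * i = 2 * ((N : ℤ) * (m * t)) := by linarith
    exact mul_left_cancel₀ two_ne_zero this
  rw [← hi, map_zpow, hu, h4, zpow_mul, zpow_natCast, ← ofAdd_nsmul]
  simp

theorem exists_zeta (m : ℕ) (hm : m ≠ 0) :
    ∃ ζ : AlgebraicClosure ℚ, IsPrimitiveRoot ζ m := by
  have : NeZero m := ⟨hm⟩
  have : NeZero ((m : ℕ) : AlgebraicClosure ℚ) := ⟨Nat.cast_ne_zero.mpr hm⟩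
  exact HasEnoughRootsOfUnity.exists_primitiveRoot (AlgebraicClosure ℚ) m

/-- Infinitely many primes `≡ 1 mod 2N` outside a finite set. -/
theorem exists_primes {N : ℕ} (hN : N ≠ 0) (T : Finset ℕ) :
    ∃ f : ℕ → ℕ, Function.Injective f ∧ ∀ j, (f j).Prime ∧ f j ≡ 1 [MOD 2 * N] ∧ f j ∉ T := by
  have h : Set.Infinite ({p : ℕ | Nat.Prime p ∧ p ≡ 1 [MOD 2 * N]} \ (T : Set ℕ)) :=
    (Nat.infinite_setOfPred_prime_modEq_one (mul_ne_zero two_ne_zero hN)).sdiff T.finite_toSet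
  refine ⟨fun j => (h.natEmbedding _ j : ℕ), fun i j hij => ?_, fun j => ?_⟩
  · exact (h.natEmbedding _).injective (Subtype.ext hij)
  · have h1 := (h.natEmbedding _ j).2
    exact ⟨h1.1.1, h1.1.2, fun h2 => h1.2 h2⟩

end Fermat.Agent.Cor.Cheb.AuxChar

namespace Fermat.Agent.Cor.Cheb

open AuxChar

/-- **(Y3)** -/
theorem exists_aux {G : Type*} [Group G] (r : GQ →* G)
    (L : IntermediateField ℚ (AlgebraicClosure ℚ)) [FiniteDimensional ℚ L]
    (hL : ∀ σ : GQ, (∀ x ∈ L, σ x = x) → r σ = 1) {N : ℕ} (hN : N ≠ 0) (k : ℕ) :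
    ∃ (ℓ : Fin k → ℕ) (u : ∀ j, (ZMod (ℓ j))ˣ →* Multiplicative (ZMod N))
      (ψ : Fin k → (GQ →* Multiplicative (ZMod N)))
      (M : IntermediateField ℚ (AlgebraicClosure ℚ)),
      Function.Injective ℓ ∧ (∀ j, (ℓ j).Prime) ∧ (∀ j, u j (-1) = 1) ∧
      (∀ j (p : ℕ) (_ : p.Prime) (hc : p.Coprime (ℓ j))
        (A : ValuationSubring (AlgebraicClosure ℚ)) (φ : GQ), A.LiesOverPrime p →
          A.IsFrobeniusAt φ p → ψ j φ = u j (ZMod.unitOfCoprime p hc)) ∧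
      FiniteDimensional ℚ M ∧ (∀ σ : GQ, (∀ x ∈ M, σ x = x) → ∀ j, ψ j σ = 1) ∧
      ∀ j, ∃ (A : ValuationSubring (AlgebraicClosure ℚ)) (ι : GQ), A.LiesOverPrime (ℓ j) ∧
        ι ∈ A.inertiaSubgroupIn ℚ ∧ r ι = 1 ∧ ψ j ι = Multiplicative.ofAdd 1 ∧
          ∀ i, i ≠ j → ψ i ι = 1 := by
  obtain ⟨T, hT⟩ := exists_unram L
  obtain ⟨f, hfinj, hf⟩ := exists_primes hN T
  have hne : ∀ j : Fin k, NeZero (f j) := fun j => ⟨(hf j).1.ne_zero⟩
  choose u hu v huv using fun j : Fin k => exists_char (hf j).1 hN (hf j).2.1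
  choose ζ hζ using fun j : Fin k => exists_zeta (f j) (hf j).1.ne_zero
  have hfd : ∀ j : Fin k, FiniteDimensional ℚ (IntermediateField.adjoin ℚ {ζ j}) := fun j =>
    IntermediateField.adjoin.finiteDimensional (Algebra.IsIntegral.isIntegral (ζ j))
  have hcop : ∀ i j : Fin k, i ≠ j → (f j).Coprime (f i) := fun i j hij =>
    (Nat.coprime_primes (hf j).1 (hf i).1).mpr fun h =>
      hij (Fin.val_injective (hfinj h)).symm
  refine ⟨fun j => f j, u, fun j => (u j).comp (cyc (hζ j)),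
    ⨆ j, IntermediateField.adjoin ℚ {ζ j}, fun i j hij => Fin.val_injective (hfinj hij),
    fun j => (hf j).1, hu, ?_, IntermediateField.finiteDimensional_iSup_of_finite, ?_, ?_⟩
  · intro j p _ hc A φ hA hφ
    rw [MonoidHom.comp_apply]
    congr 1
    apply Units.ext
    rw [cyc_frob (hζ j) hA hφ hc, ZMod.coe_unitOfCoprime]
  · intro σ hσ j
    have h1 : σ (ζ j) = ζ j := hσ _ ((le_iSup (fun j => IntermediateField.adjoin ℚ {ζ j}) j)
      (IntermediateField.mem_adjoin_simple_self ℚ (ζ j)))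
    have h2 : cyc (hζ j) σ = 1 := by
      apply Units.ext
      rw [cyc_eq_of_pow (hζ j) (k := 1) (by rw [h1, pow_one]), Nat.cast_one, Units.val_one]
    rw [MonoidHom.comp_apply, h2, map_one]
  · intro j
    obtain ⟨A, hA, -⟩ := Frob.exists_frobenius (f j) (hf j).1
    have hη : IsPrimitiveRoot (ζ j ^ ((v j : (ZMod (f j))ˣ) : ZMod (f j)).val) (f j) :=
      (hζ j).pow_of_coprime _ (ZMod.val_coe_unit_coprime (v j))
    obtain ⟨ι, hι, hιζ⟩ := S36norm.exists_inertia_zeta (hf j).1 hA (hζ j) hη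
    refine ⟨A, ι, hA, hι, hL ι ((hT _ (hf j).1 (hf j).2.2 A hA).1 ι hι), ?_, fun i hij => ?_⟩
    · have h1 : cyc (hζ j) ι = v j := by
        apply Units.ext
        rw [cyc_eq_of_pow (hζ j) hιζ, ZMod.natCast_zmod_val]
      rw [MonoidHom.comp_apply, h1, huv]
    · have h1 : ι (ζ i) = ζ i := GalRep.inertia_fix_rootOfUnity hA (hcop i j hij)
        (hf i).1.ne_zero hι (hζ i).pow_eq_one
      have h2 : cyc (hζ i) ι = 1 := by
        apply Units.ext
        rw [cyc_eq_of_pow (hζ i) (k := 1) (by rw [h1, pow_one]), Nat.cast_one, Units.val_one]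
      rw [MonoidHom.comp_apply, h2, map_one]

end Fermat.Agent.Cor.Cheb
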