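import Fermat.Agent.Frob.Chebotarev
import Fermat.Agent.Corollaries.ZetaK.FrobCount
import Fermat.Agent.Corollaries.ZetaK.Frobenius

/-!
# The prime ideal theorem in the ideal classes, as a hypothesis

`PITC F` is the statement of Landau's prime ideal theorem in every ideal class of `F`.
-/

set_option autoImplicit false

open NumberField Filter Topology
open scoped nonZeroDivisors

namespace Fermat.Agent.Cor.Cheb

/-- Landau's prime ideal theorem in the ideal classes of `F`. -/
def PITC (F : Type*) [Field F] [NumberField F] : Prop :=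
  ∀ C : ClassGroup (𝓞 F), Tendsto (fun x : ℕ => (Nat.card {P : ClassL.Pr F //
    Ideal.absNorm ((P.1 : (Ideal (𝓞 F))⁰) : Ideal (𝓞 F)) ≤ x ∧ ClassGroup.mk0 P.1 = C} : ℝ) *
      Real.log x / x) atTop (𝓝 (1 / (Nat.card (ClassGroup (𝓞 F)) : ℝ)))

end Fermat.Agent.Cor.Cheb
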