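import Fermat.Agent.Corollaries.Cheb.Defs

/-!
# The crossing argument with unramified cyclic extensions
-/

set_option autoImplicit false

open NumberField Filter Topology
open scoped nonZeroDivisors

namespace Fermat.Agent.Cor.Cheb

open Fermat.Agent.Frob Fermat.Agent.FrobDensity Fermat.Agent.Classic.Level

/-- auxiliary characters of order `N` for `r` -/
structure Aux {G : Type*} [Group G] (r : GQ →* G) (N k : ℕ) where
  ℓ : Fin k → ℕ
  u : ∀ j, (ZMod (ℓ j))ˣ →* Multiplicative (ZMod N)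
  ψ : Fin k → (GQ →* Multiplicative (ZMod N))
  M : IntermediateField ℚ (AlgebraicClosure ℚ)
  inj : Function.Injective ℓ
  prime : ∀ j, (ℓ j).Prime
  u_neg : ∀ j, u j (-1) = 1
  frob_eq : ∀ j (p : ℕ) (_ : p.Prime) (hc : p.Coprime (ℓ j)) (A : ValuationSubring (AlgebraicClosure ℚ))
    (φ : GQ), A.LiesOverPrime p → A.IsFrobeniusAt φ p → ψ j φ = u j (ZMod.unitOfCoprime p hc)
  fin : FiniteDimensional ℚ M
  level : ∀ σ : GQ, (∀ x ∈ M, σ x = x) → ∀ j, ψ j σ = 1
  inert : ∀ j, ∃ (A : ValuationSubring (AlgebraicClosure ℚ)) (ι : GQ), A.LiesOverPrime (ℓ j) ∧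
    ι ∈ A.inertiaSubgroupIn ℚ ∧ r ι = 1 ∧ ψ j ι = Multiplicative.ofAdd 1 ∧
      ∀ i, i ≠ j → ψ i ι = 1

namespace Aux

variable {G : Type*} [Group G] {r : GQ →* G} {N k : ℕ} (X : Aux r N k)

/-- `r` together with the auxiliary characters -/
noncomputable def rho : GQ →* G × (Fin k → Multiplicative (ZMod N)) := r.prod (MonoidHom.pi X.ψ)

@[simp] theorem rho_fst (σ : GQ) : (X.rho σ).1 = r σ := rfl

@[simp] theorem rho_snd (σ : GQ) (j : Fin k) : (X.rho σ).2 j = X.ψ j σ := rfl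

theorem exists_inert (j : Fin k) : ∃ (A : ValuationSubring (AlgebraicClosure ℚ)) (ι : GQ),
    A.LiesOverPrime (X.ℓ j) ∧ ι ∈ A.inertiaSubgroupIn ℚ ∧
      X.rho ι = (1, Pi.mulSingle j (Multiplicative.ofAdd 1)) := by
  obtain ⟨A, ι, hA, hι, h1, h2, h3⟩ := X.inert j
  refine ⟨A, ι, hA, hι, Prod.ext h1 (funext fun i => ?_)⟩
  change X.ψ i ι = Pi.mulSingle (M := fun _ => Multiplicative (ZMod N)) j (Multiplicative.ofAdd 1) i
  by_cases hij : i = j
  · subst hij
    rw [h2, Pi.mulSingle_eq_same]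
  · rw [h3 i hij, Pi.mulSingle_eq_of_ne hij]

theorem rho_surjective (hr : Function.Surjective r) : Function.Surjective X.rho := by
  have h1 : ∀ (j : Fin k) (a : Multiplicative (ZMod N)),
      ((1 : G), Pi.mulSingle (M := fun _ => Multiplicative (ZMod N)) j a) ∈ X.rho.range := by
    intro j a
    obtain ⟨A, ι, -, -, h⟩ := X.exists_inert j
    obtain ⟨n, hn⟩ := ZMod.intCast_surjective (Multiplicative.toAdd a)
    refine ⟨ι ^ n, ?_⟩
    rw [map_zpow, h]
    refine Prod.ext (one_zpow n) ?_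
    change (Pi.mulSingle (M := fun _ => Multiplicative (ZMod N)) j (Multiplicative.ofAdd 1)) ^ n = _
    rw [← Pi.mulSingle_zpow, ← ofAdd_zsmul, zsmul_one, hn]
    rfl
  have h2 : ∀ t : Fin k → Multiplicative (ZMod N), ((1 : G), t) ∈ X.rho.range := by
    intro t
    have h3 : (X.rho.range).comap (MonoidHom.inr G (Fin k → Multiplicative (ZMod N))) = ⊤ := by
      rw [eq_top_iff]
      intro t _
      exact Subgroup.pi_mem_of_mulSingle_mem t fun i => h1 i (t i)
    have h4 : t ∈ (X.rho.range).comap (MonoidHom.inr G (Fin k → Multiplicative (ZMod N))) := by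
      rw [h3]; trivial
    exact h4
  rintro ⟨g, t⟩
  obtain ⟨σ, rfl⟩ := hr g
  obtain ⟨τ, hτ⟩ := h2 ((X.rho σ).2⁻¹ * t)
  refine ⟨σ * τ, ?_⟩
  rw [map_mul, hτ]
  refine Prod.ext ?_ ?_
  · simp
  · simp

/-- the residue symbols -/
noncomputable def res (n : ℕ) : Fin k → Multiplicative (ZMod N) := fun j =>
  if hc : n.Coprime (X.ℓ j) then X.u j (ZMod.unitOfCoprime n hc) else 1

/-- the product of the auxiliary primes -/
def mod : ℕ := ∏ j, X.ℓ j

theorem mod_ne_zero : X.mod ≠ 0 := Finset.prod_ne_zero_iff.mpr fun j _ => (X.prime j).ne_zero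

theorem coprime_of_mod {n : ℕ} (h : n.Coprime X.mod) (j : Fin k) : n.Coprime (X.ℓ j) :=
  h.coprime_dvd_right (Finset.dvd_prod_of_mem _ (Finset.mem_univ j))

theorem res_mul (a b : ℕ) (ha : a.Coprime X.mod) (hb : b.Coprime X.mod) :
    X.res (a * b) = X.res a * X.res b := by
  funext j
  have h1 := X.coprime_of_mod ha j
  have h2 := X.coprime_of_mod hb j
  have h3 : (a * b).Coprime (X.ℓ j) := Nat.Coprime.mul_left h1 h2
  rw [Pi.mul_apply, res, res, res, dif_pos h1, dif_pos h2, dif_pos h3, ← map_mul]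
  congr 1
  ext
  simp

theorem snd_rho_frob {p : ℕ} (hp : p.Prime) (h : p.Coprime X.mod)
    {A : ValuationSubring (AlgebraicClosure ℚ)} {φ : GQ} (hA : A.LiesOverPrime p)
    (hφ : A.IsFrobeniusAt φ p) : (X.rho φ).2 = X.res p := by
  funext j
  rw [rho_snd, X.frob_eq j p hp (X.coprime_of_mod h j) A φ hA hφ, res,
    dif_pos (X.coprime_of_mod h j)]

/-- `γ` is good -/
def IsGood (t : Fin k → Multiplicative (ZMod N)) : Prop :=
  ∃ i j, i ≠ j ∧ orderOf (t i) = N ∧ orderOf (t j) = N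

end Aux

end Fermat.Agent.Cor.Cheb
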