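import Fermat.Agent.Corollaries.Cheb.Good2
import Fermat.Agent.Corollaries.Cheb.AuxChar
import Fermat.Agent.Corollaries.ZetaK.Landau

/-!
# The density of the good elements
-/

set_option autoImplicit false

open NumberField Filter Topology
open scoped nonZeroDivisors

namespace Fermat.Agent.Cor.Cheb

open Fermat.Agent.Frob Fermat.Agent.FrobDensity Fermat.Agent.Classic.Level

/-- a fixed point of `a` on `G ⧸ H` gives a conjugate of `a` in `H` -/
theorem exists_conj_of_pH {G : Type*} [Group G] {H : Subgroup G} {a : G} (h : pH H a ≠ 0) :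
    ∃ g : G, g⁻¹ * a * g ∈ H := by
  rw [pH] at h
  obtain ⟨⟨x, hx⟩⟩ : Nonempty {x : G ⧸ H // a • x = x} := (Nat.card_ne_zero.mp h).1
  obtain ⟨g, rfl⟩ := QuotientGroup.mk_surjective x
  have h2 : a • ((g : G) : G ⧸ H) = ((a * g : G) : G ⧸ H) := rfl
  rw [h2] at hx
  have h3 := QuotientGroup.eq.mp hx.symm
  exact ⟨g, by rwa [← mul_assoc] at h3⟩

theorem pH_ne_zero_of_mem {G : Type*} [Group G] [Finite G] {H : Subgroup G} {a : G} (h : a ∈ H) :
    pH H a ≠ 0 := by
  rw [pH]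
  have : Nonempty {x : G ⧸ H // a • x = x} := by
    refine ⟨⟨((1 : G) : G ⧸ H), ?_⟩⟩
    have h2 : a • ((1 : G) : G ⧸ H) = ((a * 1 : G) : G ⧸ H) := rfl
    rw [h2, mul_one]
    exact QuotientGroup.eq.mpr (by rw [mul_one]; exact inv_mem h)
  exact Nat.card_ne_zero.mpr ⟨this, inferInstance⟩

namespace Aux

variable {G : Type*} [Group G] {r : GQ →* G} {N k : ℕ} (X : Aux r N k)
  {γ : G × (Fin k → Multiplicative (ZMod N))}

theorem snd_conj (g a : G × (Fin k → Multiplicative (ZMod N))) : (g⁻¹ * a * g).2 = a.2 := by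
  change g.2⁻¹ * a.2 * g.2 = a.2
  rw [mul_comm, mul_inv_cancel_left]

open scoped Classical in
/-- **The good elements**: lower bound for the density. -/
theorem good_of [Finite G] (hPITC : ∀ (F : Type) [Field F] [NumberField F], PITC F)
    (hr : Function.Surjective r)
    (hlevel : ∃ L : IntermediateField ℚ (AlgebraicClosure ℚ), FiniteDimensional ℚ L ∧
      ∀ σ : GQ, (∀ x ∈ L, σ x = x) → r σ = 1) (hN : N ≠ 0) (hexp : ∀ g : G, g ^ N = 1)
    (hγ : ∃ i j, i ≠ j ∧ orderOf (γ.2 i) = N ∧ orderOf (γ.2 j) = N) :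
    ∃ c : ℝ, 1 ≤ c ∧ Tendsto (fun x : ℕ => (∑ p ∈ primesTo x, NC X.rho γ p) * Real.log x / x)
      atTop (𝓝 c) := by
  have hNZ : NeZero N := ⟨hN⟩
  obtain ⟨L, hLfin, hL⟩ := X.exists_level hlevel
  obtain ⟨T⟩ := exists_fixField_of_level (ρ := X.rho) hL (Subgroup.zpowers γ)
  have hs := X.rho_surjective hr
  obtain ⟨i₀, j₀, -, hi₀, -⟩ := id hγ
  have hord : orderOf γ = N := orderOf_good hexp hi₀
  have hord2 : orderOf γ.2 = N := orderOf_snd_good hi₀
  have hgen1 : ∀ j : Fin k, ((1 : G), Pi.mulSingle (M := fun _ => Multiplicative (ZMod N)) j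
      (Multiplicative.ofAdd 1)) ^ N = (1 : G × (Fin k → Multiplicative (ZMod N))) :=
    fun j => pow_good hexp
  -- the norms are `N`-th powers
  have hnorm : ∀ (j : Fin k) (x : 𝓞 T.F),
      ∃ y : ZMod (X.ℓ j), ((Algebra.norm ℤ x : ℤ) : ZMod (X.ℓ j)) = y ^ N := by
    intro j x
    obtain ⟨A, ι, hA, hι, hρι⟩ := X.exists_inert j
    obtain ⟨φ, hφ⟩ := exists_isFrobeniusAt (X.prime j) hA
    refine norm_eq_pow T hs (X.prime j) hA hι hφ ?_ ?_ ?_ x
    · rw [hρι]
      refine Prod.ext ?_ ?_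
      · exact (one_mul _).trans (mul_one _).symm
      · exact mul_comm _ _
    · rw [hρι]
      exact hgen1 j
    · intro g n h
      rw [hρι] at h
      exact free_good hexp hγ j g n h
  have hP : ∀ x : 𝓞 T.F, (Ideal.absNorm (Ideal.span {x})).Coprime X.mod →
      X.res (Ideal.absNorm (Ideal.span {x})) = 1 := by
    intro x hx
    rw [Ideal.absNorm_span_singleton] at hx ⊢
    exact X.res_eq_one hN hx fun j => hnorm j x
  obtain ⟨D₀, hD₀, hD⟩ := exists_degOne_eq T hs
  set D : ℕ := D₀ * X.mod with hDdef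
  have hDne : D ≠ 0 := mul_ne_zero hD₀ X.mod_ne_zero
  have hcop : ∀ {p : ℕ}, p.Prime → ¬ p ∣ D → ¬ p ∣ D₀ ∧ p.Coprime X.mod := by
    intro p hp h
    refine ⟨fun h1 => h (h1.mul_right _), (Nat.Prime.coprime_iff_not_dvd hp).mpr fun h1 => ?_⟩
    exact h (h1.mul_left _)
  -- Frobenius and the residue symbols
  have hres : ∀ {p : ℕ}, p.Prime → ¬ p ∣ D → (X.rho (frob p)).2 = X.res p ∧
      degOne T.F p = pH (Subgroup.zpowers γ) (X.rho (frob p)) := by
    intro p hp h
    obtain ⟨A, hA, hφ⟩ := exists_frob_place hp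
    exact ⟨X.snd_rho_frob hp (hcop hp h).2 hA hφ, hD p hp (hcop hp h).1 A hA _ hφ⟩
  have hB : ∀ p : ℕ, p.Prime → p.Coprime D → degOne T.F p ≠ 0 →
      X.res p ∈ Subgroup.zpowers γ.2 := by
    intro p hp h h0
    have hpD : ¬ p ∣ D := (Nat.Prime.coprime_iff_not_dvd hp).mp h
    obtain ⟨h1, h2⟩ := hres hp hpD
    rw [h2] at h0
    obtain ⟨g, z, hz⟩ := exists_conj_of_pH h0
    refine ⟨z, ?_⟩
    rw [← h1, ← snd_conj g (X.rho (frob p)), ← hz]
    rfl
  have ha : ∃ p : ℕ, p.Prime ∧ p.Coprime X.mod ∧ degOne T.F p ≠ 0 ∧ X.res p = γ.2 := by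
    obtain ⟨σ, hσ⟩ := hs γ
    obtain ⟨q, hq, hqD, A, hA, -, φ, hφ, hφσ⟩ :=
      Fermat.Agent.LTF.Deep.exists_frob_eq_on L σ D.primeFactors
    have hqD' : ¬ q ∣ D := fun h => hqD (Nat.mem_primeFactors.mpr ⟨hq, h, hDne⟩)
    have h1 : X.rho φ = γ := by
      have h2 : X.rho (σ⁻¹ * φ) = 1 := by
        refine hL _ fun x hx => ?_
        rw [AlgEquiv.mul_apply, hφσ x hx, ← AlgEquiv.mul_apply, inv_mul_cancel, AlgEquiv.one_apply]
      rw [map_mul, map_inv, inv_mul_eq_one] at h2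
      rw [← h2, hσ]
    refine ⟨q, hq, (hcop hq hqD').2, ?_, ?_⟩
    · rw [hD q hq (hcop hq hqD').1 A hA φ hφ, h1]
      exact pH_ne_zero_of_mem (Subgroup.mem_zpowers γ)
    · rw [← X.snd_rho_frob hq (hcop hq hqD').2 hA hφ, h1]
  obtain ⟨c, hc1, hc⟩ := tendsto_of_PITC (hPITC T.F) X.mod_ne_zero X.res X.res_mul hP hDne hB ha
  rw [Nat.card_zpowers, hord2] at hc1
  have hN' : (0 : ℝ) < N := by exact_mod_cast Nat.pos_of_ne_zero hN
  refine ⟨N * c, ?_, ?_⟩
  · rw [div_le_iff₀ hN'] at hc1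
    linarith
  -- comparison
  have hcount : ∀ p : ℕ, p.Prime → ¬ p ∣ D →
      (N : ℝ) * (if X.res p = γ.2 then (degOne T.F p : ℝ) else 0) = NC X.rho γ p := by
    intro p hp hpD
    obtain ⟨h1, h2⟩ := hres hp hpD
    by_cases h3 : X.res p = γ.2
    · rw [if_pos h3, h2, NC]
      have h4 := pH_mul_card (Subgroup.zpowers γ) (X.rho (frob p))
      rw [Nat.card_zpowers, hord] at h4
      have h5 : Nat.card {x : G × (Fin k → Multiplicative (ZMod N)) //
          x⁻¹ * X.rho (frob p) * x ∈ Subgroup.zpowers γ} =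
          Nat.card {x : G × (Fin k → Multiplicative (ZMod N)) //
            x⁻¹ * X.rho (frob p) * x = γ} := by
        refine Nat.card_congr (Equiv.subtypeEquivRight fun x => ?_)
        constructor
        · rintro ⟨z, hz⟩
          have hz : γ ^ z = x⁻¹ * X.rho (frob p) * x := hz
          rw [← hz]
          have h6 : γ.2 ^ z = γ.2 := by
            have h7 := congrArg Prod.snd hz
            rw [snd_conj, h1, h3] at h7
            exact h7
          have h8 : γ ^ (z - 1) = 1 := by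
            rw [← orderOf_dvd_iff_zpow_eq_one, hord, ← hord2, orderOf_dvd_iff_zpow_eq_one,
              zpow_sub_one, h6, mul_inv_cancel]
          calc γ ^ z = γ ^ (z - 1) * γ := by rw [← zpow_add_one, sub_add_cancel]
            _ = γ := by rw [h8, one_mul]
        · intro h
          rw [h]
          exact Subgroup.mem_zpowers γ
      rw [← h5, ← h4]
      push_cast
      ring
    · rw [if_neg h3, mul_zero, NC]
      have h4 : IsEmpty {x : G × (Fin k → Multiplicative (ZMod N)) //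
          x⁻¹ * X.rho (frob p) * x = γ} := by
        refine ⟨fun ⟨x, hx⟩ => h3 ?_⟩
        rw [← h1, ← snd_conj x, hx]
      rw [Nat.card_of_isEmpty, Nat.cast_zero]
  refine tendsto_of_bounded (C := ∑ p ∈ D.primeFactors,
    |(N : ℝ) * (if X.res p = γ.2 then (degOne T.F p : ℝ) else 0) - NC X.rho γ p|)
    (f := fun x => ∑ p ∈ primesTo x, (N : ℝ) * (if X.res p = γ.2 then (degOne T.F p : ℝ) else 0))
    (fun x => ?_) ?_
  · rw [← Finset.sum_sub_distrib]
    refine (Finset.abs_sum_le_sum_abs _ _).trans ?_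
    rw [← Finset.sum_filter_add_sum_filter_not (primesTo x) (· ∈ D.primeFactors)]
    have h1 : ∑ p ∈ (primesTo x).filter (fun p => p ∉ D.primeFactors),
        |(N : ℝ) * (if X.res p = γ.2 then (degOne T.F p : ℝ) else 0) - NC X.rho γ p| = 0 := by
      refine Finset.sum_eq_zero fun p hp => ?_
      rw [Finset.mem_filter] at hp
      have hp' := (mem_primesTo.mp hp.1).2
      rw [hcount p hp' (fun hd => hp.2 (Nat.mem_primeFactors.mpr ⟨hp', hd, hDne⟩)), sub_self,
        abs_zero]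
    rw [h1, add_zero]
    exact Finset.sum_le_sum_of_subset_of_nonneg (fun p hp => (Finset.mem_filter.mp hp).2)
      fun p _ _ => abs_nonneg _
  · have h1 := hc.const_mul (N : ℝ)
    refine h1.congr fun x => ?_
    rw [← Finset.mul_sum, mul_assoc (N : ℝ), ← mul_div_assoc]
    congr!

/-- **The good elements**: lower bound for the density, from Landau's prime ideal theorem in the
ideal classes. -/
theorem good [Finite G] (hr : Function.Surjective r)
    (hlevel : ∃ L : IntermediateField ℚ (AlgebraicClosure ℚ), FiniteDimensional ℚ L ∧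
      ∀ σ : GQ, (∀ x ∈ L, σ x = x) → r σ = 1) (hN : N ≠ 0) (hexp : ∀ g : G, g ^ N = 1)
    (hγ : ∃ i j, i ≠ j ∧ orderOf (γ.2 i) = N ∧ orderOf (γ.2 j) = N) :
    ∃ c : ℝ, 1 ≤ c ∧ Tendsto (fun x : ℕ => (∑ p ∈ primesTo x, NC X.rho γ p) * Real.log x / x)
      atTop (𝓝 c) :=
  X.good_of (fun F _ _ => prime_ideal_theorem_class F) hr hlevel hN hexp hγ

end Aux

/-- auxiliary characters exist -/
theorem nonempty_aux {G : Type*} [Group G] (r : GQ →* G)
    (L : IntermediateField ℚ (AlgebraicClosure ℚ)) [FiniteDimensional ℚ L]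
    (hL : ∀ σ : GQ, (∀ x ∈ L, σ x = x) → r σ = 1) {N : ℕ} (hN : N ≠ 0) (k : ℕ) :
    Nonempty (Aux r N k) := by
  obtain ⟨ℓ, u, ψ, M, h1, h2, h3, h4, h5, h6, h7⟩ := exists_aux r L hL hN k
  exact ⟨⟨ℓ, u, ψ, M, h1, h2, h3, h4, h5, h6, h7⟩⟩

end Fermat.Agent.Cor.Cheb
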